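import Fermat.Agent.P2.Conic.Norm

/-!
# Cubic algebras with a rational root and the conic attached to an element
-/

namespace Fermat.Agent.P2.Conic

variable {K A : Type*} [Field K] [CommRing A] [Algebra K A]

/-- the conic `lam (α z²) = 0` has a nonzero solution. -/
def Isot (lam : A →ₗ[K] K) (α : A) : Prop := ∃ z : A, z ≠ 0 ∧ lam (α * z ^ 2) = 0

open Classical in
/-- the sign of the conic -/
noncomputable def sg (lam : A →ₗ[K] K) (α : A) : ℤˣ := if Isot lam α then 1 else -1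

theorem sg_eq_one_iff {lam : A →ₗ[K] K} {α : A} : sg lam α = 1 ↔ Isot lam α := by
  unfold sg
  split_ifs with h
  · simp [h]
  · simp [h]

theorem sg_eq_hs {lam : A →ₗ[K] K} {α : A} {L : Type*} [Field L] {a b : L}
    (h : Isot lam α ↔ NF a b) : sg lam α = hs a b := by
  by_cases h' : NF a b
  · rw [hs_eq_one_iff.2 h', sg_eq_one_iff]; exact h.2 h'
  · rw [hs_eq_neg_one_iff.2 h']
    exact (Int.units_eq_one_or _).resolve_left (fun h'' ↦ h' (h.1 (sg_eq_one_iff.1 h'')))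

theorem isot_mul_sq {lam : A →ₗ[K] K} {α β : A} (hβ : IsUnit β) :
    Isot lam (α * β ^ 2) ↔ Isot lam α := by
  obtain ⟨b, rfl⟩ := hβ
  constructor
  · rintro ⟨z, hz, h⟩
    refine ⟨b * z, ?_, ?_⟩
    · intro h0
      apply hz
      have := congrArg (fun t ↦ (↑b⁻¹ : A) * t) h0
      simpa using this
    · rw [← h]; congr 1; ring
  · rintro ⟨z, hz, h⟩
    refine ⟨(↑b⁻¹ : A) * z, ?_, ?_⟩
    · intro h0
      apply hz
      have := congrArg (fun t ↦ (b : A) * t) h0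
      simpa using this
    · rw [← h]; congr 1
      have h1 : (b : A) * (↑b⁻¹ : A) = 1 := Units.mul_inv b
      calc α * (b : A) ^ 2 * ((↑b⁻¹ : A) * z) ^ 2
          = α * z ^ 2 * ((b : A) * (↑b⁻¹ : A)) ^ 2 := by ring
        _ = α * z ^ 2 := by rw [h1]; ring

theorem sg_mul_sq {lam : A →ₗ[K] K} {α β : A} (hβ : IsUnit β) :
    sg lam (α * β ^ 2) = sg lam α := by
  by_cases h : Isot lam α
  · rw [sg_eq_one_iff.2 h, sg_eq_one_iff]
    exact (isot_mul_sq hβ).2 h
  · have h1 : sg lam α = -1 :=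
      (Int.units_eq_one_or _).resolve_left (fun h'' ↦ h (sg_eq_one_iff.1 h''))
    rw [h1]
    exact (Int.units_eq_one_or _).resolve_left
      (fun h'' ↦ h ((isot_mul_sq hβ).1 (sg_eq_one_iff.1 h'')))

/-- coordinates on a cubic algebra `K × L`. -/
structure Rt (K A : Type*) [Field K] [CommRing A] [Algebra K A] (lam : A →ₗ[K] K) where
  ev : A →ₗ[K] K
  rr : A →ₗ[K] K
  ss : A →ₗ[K] K
  u : K
  d : K
  hd : d ≠ 0
  ev_one : ev 1 = 1
  rr_one : rr 1 = 1
  ss_one : ss 1 = 0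
  ev_mul : ∀ z w, ev (z * w) = ev z * ev w
  rr_mul : ∀ z w, rr (z * w) = rr z * rr w - d * ss z * ss w
  ss_mul : ∀ z w, ss (z * w) = rr z * ss w + ss z * rr w - u * ss z * ss w
  ext : ∀ z w, ev z = ev w → rr z = rr w → ss z = ss w → z = w
  surj : ∀ a b c : K, ∃ z, ev z = a ∧ rr z = b ∧ ss z = c
  lam_eq : ∀ z, d * lam z = ev z - rr z

namespace Rt

variable {lam : A →ₗ[K] K} (R : Rt K A lam)

/-- the norm form of the quadratic part. -/
def nL (z : A) : K := R.rr z ^ 2 - R.u * R.rr z * R.ss z + R.d * R.ss z ^ 2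

/-- the norm -/
def nm (z : A) : K := R.ev z * R.nL z

theorem nL_mul (z w : A) : R.nL (z * w) = R.nL z * R.nL w := by
  unfold nL
  rw [R.rr_mul, R.ss_mul]
  ring

theorem nm_mul (z w : A) : R.nm (z * w) = R.nm z * R.nm w := by
  unfold nm
  rw [R.ev_mul, R.nL_mul]; ring

theorem isUnit_of {z : A} (h1 : R.ev z ≠ 0) (h2 : R.nL z ≠ 0) : IsUnit z := by
  obtain ⟨w, hw1, hw2, hw3⟩ := R.surj ((R.ev z)⁻¹)
    ((R.rr z - R.u * R.ss z) / R.nL z) (-R.ss z / R.nL z)
  refine IsUnit.of_mul_eq_one w ?_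
  have h3 : R.rr z ^ 2 - R.u * R.rr z * R.ss z + R.d * R.ss z ^ 2 = R.nL z := rfl
  apply R.ext
  · rw [R.ev_mul, hw1, R.ev_one, mul_inv_cancel₀ h1]
  · rw [R.rr_mul, hw2, hw3, R.rr_one]
    field_simp
    linear_combination h3
  · rw [R.ss_mul, hw2, hw3, R.ss_one]
    field_simp
    ring

theorem d_mul_lam (α z : A) : R.d * lam (α * z ^ 2) =
    R.ev α * R.ev z ^ 2 - R.rr α * R.rr z ^ 2 + 2 * R.ss α * R.d * R.rr z * R.ss z
      + R.d * (R.rr α - R.ss α * R.u) * R.ss z ^ 2 := by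
  rw [R.lam_eq, sq z, R.ev_mul, R.rr_mul, R.ev_mul, R.rr_mul, R.ss_mul]
  ring

/-- The general formula for the conic. -/
theorem isot_iff (h2 : (2 : K) ≠ 0) {α : A} (hr : R.rr α ≠ 0)
    (hN : R.nL α ≠ 0) : Isot lam α ↔ NF (R.rr α * R.ev α) (R.d * R.nL α) := by
  have hd := R.hd
  rw [← iso3_iff h2 (mul_ne_zero hd hN)]
  have h3 : R.rr α ^ 2 - R.u * R.rr α * R.ss α + R.d * R.ss α ^ 2 = R.nL α := rfl
  constructor
  · rintro ⟨z, hz, h⟩
    have h4 := R.d_mul_lam α z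
    rw [h, mul_zero] at h4
    refine ⟨R.ev z, R.ss z, R.rr α * R.rr z - R.ss α * R.d * R.ss z, ?_, ?_⟩
    · by_contra hcon
      push Not at hcon
      obtain ⟨c1, c2, c3⟩ := hcon
      rw [c2, mul_zero, sub_zero] at c3
      have c4 : R.rr z = 0 := (mul_eq_zero.1 c3).resolve_left hr
      apply hz
      apply R.ext
      · rw [c1, map_zero]
      · rw [c4, map_zero]
      · rw [c2, map_zero]
    · linear_combination -R.rr α * h4 - R.d * R.ss z ^ 2 * h3
  · rintro ⟨x, y, w, hne, h⟩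
    obtain ⟨z, hz1, hz2, hz3⟩ := R.surj x ((w + R.ss α * R.d * y) / R.rr α) y
    refine ⟨z, ?_, ?_⟩
    · rintro rfl
      rw [map_zero] at hz1 hz2 hz3
      have c1 : w = 0 := by
        rw [← hz3, mul_zero, add_zero] at hz2
        rcases div_eq_zero_iff.1 hz2.symm with h | h
        · exact h
        · exact absurd h hr
      rcases hne with h | h | h
      · exact h hz1.symm
      · exact h hz3.symm
      · exact h c1
    · have h4 := R.d_mul_lam α z
      rw [hz1, hz2, hz3] at h4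
      have h5 : R.rr α * (R.d * lam (α * z ^ 2)) = 0 := by
        rw [h4]
        field_simp
        linear_combination h + R.d * y ^ 2 * h3
      rcases mul_eq_zero.1 h5 with h6 | h6
      · exact absurd h6 hr
      · exact (mul_eq_zero.1 h6).resolve_left hd

theorem isot_of_rr_eq_zero {α : A} (hr : R.rr α = 0) : Isot lam α := by
  obtain ⟨z, hz1, hz2, hz3⟩ := R.surj 0 1 0
  refine ⟨z, ?_, ?_⟩
  · rintro rfl
    rw [map_zero] at hz2
    exact zero_ne_one hz2
  · have h4 := R.d_mul_lam α z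
    rw [hz1, hz2, hz3, hr] at h4
    have : R.d * lam (α * z ^ 2) = 0 := by rw [h4]; ring
    exact (mul_eq_zero.1 this).resolve_left R.hd

/-- same formula when the norm is a square. -/
theorem isot_iff' (h2 : (2 : K) ≠ 0) {α : A} (hr : R.rr α ≠ 0) {n : K} (hn : n ≠ 0)
    (hN : R.nm α = n ^ 2) : Isot lam α ↔ NF (R.rr α * R.ev α) (R.d * R.ev α) := by
  have h0 : R.nm α ≠ 0 := by rw [hN]; exact pow_ne_zero 2 hn
  have h1 : R.ev α ≠ 0 := left_ne_zero_of_mul h0
  have h3 : R.nL α ≠ 0 := right_ne_zero_of_mul h0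
  rw [R.isot_iff h2 hr h3]
  have h4 : R.ev α * R.nL α = n ^ 2 := hN
  have h5 : R.d * R.nL α = (R.d * R.ev α) * (n / R.ev α) ^ 2 := by
    field_simp
    linear_combination R.d * h4
  rw [h5, nf_mul_sq_right (div_ne_zero hn h1)]

/-- Hilbert 90: `y` is `(1, a)` up to squares. -/
theorem exists_sq_mul (h2 : (2 : K) ≠ 0) {y : A} {c n : K} (hc : c ≠ 0) (hn : n ≠ 0)
    (hy : R.ev y = c ^ 2) (hN : R.nm y = n ^ 2) : ∃ (a : K) (β : A), a ≠ 0 ∧ IsUnit β ∧
      R.ev (y * β ^ 2) = 1 ∧ R.rr (y * β ^ 2) = a ∧ R.ss (y * β ^ 2) = 0 ∧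
        ∃ e : K, e ≠ 0 ∧ R.nL y = a ^ 2 * e ^ 2 ∧ ∃ β' : A, R.nL β' * e = 1 := by
  have key : ∀ m : K, m ≠ 0 → R.nL y = m ^ 2 → 2 * R.rr y - R.ss y * R.u + 2 * m ≠ 0 →
      ∃ (a : K) (β : A), a ≠ 0 ∧ IsUnit β ∧
      R.ev (y * β ^ 2) = 1 ∧ R.rr (y * β ^ 2) = a ∧ R.ss (y * β ^ 2) = 0 ∧
        ∃ e : K, e ≠ 0 ∧ R.nL y = a ^ 2 * e ^ 2 ∧ ∃ β' : A, R.nL β' * e = 1 := by
    intro m hm hL ha
    have hL' : R.rr y ^ 2 - R.u * R.rr y * R.ss y + R.d * R.ss y ^ 2 = m ^ 2 := hL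
    set a := 2 * R.rr y - R.ss y * R.u + 2 * m with ha'
    obtain ⟨β, hβ1, hβ2, hβ3⟩ := R.surj c⁻¹
      (1 + (R.rr y - R.ss y * R.u) / m) (-R.ss y / m)
    have hnLβ : R.nL β * m = a := by
      unfold nL
      rw [hβ2, hβ3, ha']
      field_simp
      linear_combination hL'
    have hnL0 : R.nL β ≠ 0 := by
      intro h0
      rw [h0, zero_mul] at hnLβ
      exact ha hnLβ.symm
    refine ⟨a, β, ha, R.isUnit_of (by rw [hβ1]; exact inv_ne_zero hc) hnL0, ?_, ?_, ?_,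
      (R.nL β)⁻¹, inv_ne_zero hnL0, ?_, β, mul_inv_cancel₀ hnL0⟩
    · rw [sq β, R.ev_mul, R.ev_mul, hy, hβ1]
      field_simp
    · rw [sq β, R.rr_mul, R.rr_mul, R.ss_mul, hβ2, hβ3, ha']
      field_simp
      linear_combination (R.rr y + 2 * m - R.ss y * R.u) * hL'
    · rw [sq β, R.ss_mul, R.rr_mul, R.ss_mul, hβ2, hβ3]
      field_simp
      linear_combination (-R.ss y) * hL'
    · rw [hL, ← hnLβ]
      field_simp
  have hnm : R.ev y * R.nL y = n ^ 2 := hN
  have hL : R.nL y = (n / c) ^ 2 := by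
    rw [hy] at hnm
    field_simp
    linear_combination hnm
  have hm : n / c ≠ 0 := div_ne_zero hn hc
  by_cases h : 2 * R.rr y - R.ss y * R.u + 2 * (n / c) = 0
  · refine key (-(n / c)) (neg_ne_zero.2 hm) (by rw [hL]; ring) ?_
    intro h'
    have : 4 * (n / c) = 0 := by linear_combination h - h'
    rcases mul_eq_zero.1 this with h4 | h4
    · apply h2
      have : (2 : K) * 2 = 0 := by linear_combination h4
      exact (mul_self_eq_zero.1 this)
    · exact hm h4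
  · exact key (n / c) hm hL h

/-- **The pairing formula.** -/
theorem pairing (h2 : (2 : K) ≠ 0) (hK : IsHilbert K) {α y : A} {nα c n : K}
    (hnα : nα ≠ 0) (hα : R.nm α = nα ^ 2) (hc : c ≠ 0) (hn : n ≠ 0)
    (hy : R.ev y = c ^ 2) (hN : R.nm y = n ^ 2) :
    ∃ (a e : K), a ≠ 0 ∧ e ≠ 0 ∧ R.nL y = a ^ 2 * e ^ 2 ∧ (∃ β' : A, R.nL β' * e = 1) ∧
      sg lam α * sg lam y * sg lam (α * y) = hs a (R.ev α) := by
  obtain ⟨a, β, ha, hβ, h1, h3, h4, e, he, h5, hβ'⟩ := R.exists_sq_mul h2 hc hn hy hN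
  refine ⟨a, e, ha, he, h5, hβ', ?_⟩
  have hd := R.hd
  have h0 : R.nm α ≠ 0 := by rw [hα]; exact pow_ne_zero 2 hnα
  have hα1 : R.ev α ≠ 0 := left_ne_zero_of_mul h0
  -- the sign of y
  have hy1 : sg lam y = hs a R.d := by
    rw [← sg_mul_sq hβ]
    apply sg_eq_hs
    have hnm : R.nm (y * β ^ 2) = a ^ 2 := by
      unfold nm nL
      rw [h1, h3, h4]; ring
    rw [R.isot_iff' h2 (by rw [h3]; exact ha) ha hnm, h1, h3, mul_one, mul_one]
  have hαy : sg lam (α * y) = sg lam (α * (y * β ^ 2)) := by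
    rw [← mul_assoc, sg_mul_sq hβ]
  have hev : R.ev (α * (y * β ^ 2)) = R.ev α := by rw [R.ev_mul, h1, mul_one]
  have hrr : R.rr (α * (y * β ^ 2)) = a * R.rr α := by
    rw [R.rr_mul, h3, h4]; ring
  have hnm : R.nm (α * (y * β ^ 2)) = (nα * a) ^ 2 := by
    rw [R.nm_mul, hα]
    unfold nm nL
    rw [h1, h3, h4]; ring
  rw [hy1, hαy]
  by_cases hr : R.rr α = 0
  · -- degenerate case
    have h6 : sg lam α = 1 := sg_eq_one_iff.2 (R.isot_of_rr_eq_zero hr)
    have h7 : sg lam (α * (y * β ^ 2)) = 1 :=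
      sg_eq_one_iff.2 (R.isot_of_rr_eq_zero (by rw [hrr, hr, mul_zero]))
    rw [h6, h7, one_mul, mul_one]
    have h8 : R.ev α * (R.d * R.ss α ^ 2) = nα ^ 2 := by
      have := hα
      unfold nm nL at this
      rw [hr] at this
      linear_combination this
    have hs0 : R.ss α ≠ 0 := by
      intro h9
      rw [h9] at h8
      apply pow_ne_zero 2 hnα
      rw [← h8]; ring
    have h9 : R.d = R.ev α * (nα / (R.ev α * R.ss α)) ^ 2 := by
      field_simp
      linear_combination h8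
    rw [h9, hs_mul_sq_right (div_ne_zero hnα (mul_ne_zero hα1 hs0))]
  · have h6 : sg lam α = hs (R.rr α * R.ev α) (R.d * R.ev α) :=
      sg_eq_hs (R.isot_iff' h2 hr hnα hα)
    have h7 : sg lam (α * (y * β ^ 2)) = hs (a * (R.rr α * R.ev α)) (R.d * R.ev α) := by
      have := R.isot_iff' h2 (α := α * (y * β ^ 2)) (by rw [hrr]; exact mul_ne_zero ha hr)
        (mul_ne_zero hnα ha) hnm
      rw [hrr, hev, mul_assoc] at this
      exact sg_eq_hs this
    rw [h6, h7, hs_mul_left hK ha (mul_ne_zero hr hα1) (mul_ne_zero hd hα1),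
      hs_mul_right h2 hK ha hd hα1]
    generalize hs (R.rr α * R.ev α) (R.d * R.ev α) = s1
    generalize hs a R.d = s2
    generalize hs a (R.ev α) = s3
    have hs1 : s1 * s1 = 1 := Int.units_mul_self s1
    have hs2 : s2 * s2 = 1 := Int.units_mul_self s2
    calc s1 * s2 * (s2 * s3 * s1) = (s1 * s1) * (s2 * s2) * s3 := by
          simp only [mul_comm, mul_left_comm]
      _ = s3 := by rw [hs1, hs2, one_mul, one_mul]

end Rt

end Fermat.Agent.P2.Conic
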