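import Mathlib

/-!
# Interface of the conic reciprocity (P2, block 2b)

`k` is a cubic number field, `θ` an integral generator whose discriminant is prime to all
primes outside `T`.
-/

namespace Fermat.Agent.P2.Conic

open IsDedekindDomain NumberField Polynomial

/-- `α` has even valuation at all primes of `k` above `v`. -/
def EvenAt {k : Type*} [Field k] [NumberField k] (v : ℕ) (α : k) : Prop :=
  ∀ 𝔭 : HeightOneSpectrum (𝓞 k), ((v : ℕ) : 𝓞 k) ∈ 𝔭.asIdeal →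
    ∃ n : ℤ, 𝔭.valuation k α = WithZero.exp (2 * n)

/-- the local conditions away from `q`. -/
structure IsSel {k : Type*} [Field k] [NumberField k] (T : Set ℕ) (q : ℕ) (α : k) : Prop where
  ne_zero : α ≠ 0
  norm : IsSquare (Algebra.norm ℚ α)
  sq : ∀ (v : ℕ) [Fact v.Prime], v ∈ T → ∀ i : k →+* ℚ_[v], IsSquare (i α)
  even : ∀ v : ℕ, v.Prime → v ∉ T → v ≠ q → EvenAt v α

/-- The statement of conic reciprocity: see `Fermat.Agent.P2.Conic.conicIso` (Main.lean). -/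
def ConicIso : Prop :=
  ∀ (k : Type) [Field k] [NumberField k] (_h3 : Module.finrank ℚ k = 3)
    (_hreal : InfinitePlace.nrRealPlaces k = 1)
    (θ : k) (_hθ : IsIntegral ℤ θ) (_hgen : IntermediateField.adjoin ℚ {θ} = ⊤)
    (T : Set ℕ) (_h2T : 2 ∈ T)
    (_hdisc : ∀ v : ℕ, v.Prime → v ∉ T → ¬ ((v : ℤ) ∣ (minpoly ℤ θ).discr))
    (_hT : ∀ (v : ℕ) [Fact v.Prime], v ∈ T → Nonempty (k →+* ℚ_[v]))
    (q : ℕ) [Fact q.Prime] (_hqT : q ∉ T) (i : k →+* ℚ_[q]) (_hi : ∀ j : k →+* ℚ_[q], j = i)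
    (α β : k) (_hα : IsSel T q α) (_hβ : IsSel T q β) (_hαq : EvenAt q α)
    (_hsq : ¬ IsSquare (i α)), EvenAt q β

end Fermat.Agent.P2.Conic
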