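import Mathlib

/-!
# Norm forms: the relation `a ∈ N(K(√b))` over a general field
-/

namespace Fermat.Agent.P2.Conic

variable {K : Type*} [Field K]

/-- `a` is of the form `x² - b y²`. -/
def NF (a b : K) : Prop := ∃ x y : K, a = x ^ 2 - b * y ^ 2

theorem NF.mul {a a' b : K} (h : NF a b) (h' : NF a' b) : NF (a * a') b := by
  obtain ⟨x, y, rfl⟩ := h
  obtain ⟨x', y', rfl⟩ := h'
  exact ⟨x * x' + b * y * y', x * y' + y * x', by ring⟩

theorem NF.sq (c b : K) : NF (c ^ 2) b := ⟨c, 0, by ring⟩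

theorem NF.one (b : K) : NF (1 : K) b := ⟨1, 0, by ring⟩

theorem NF.neg_self (b : K) : NF (-b) b := ⟨0, 1, by ring⟩

theorem NF.one_sub (b : K) : NF (1 - b) b := ⟨1, 1, by ring⟩

theorem NF.inv {a b : K} (h : NF a b) : NF a⁻¹ b := by
  by_cases ha : a = 0
  · subst ha; simpa using h
  have : a⁻¹ = a * (a⁻¹) ^ 2 := by field_simp
  rw [this]
  exact h.mul (NF.sq _ _)

theorem NF.mul_iff {a a' b : K} (ha : a ≠ 0) (h : NF a b) : NF (a * a') b ↔ NF a' b := by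
  refine ⟨fun h' ↦ ?_, fun h' ↦ h.mul h'⟩
  have := h.inv.mul h'
  rwa [← mul_assoc, inv_mul_cancel₀ ha, one_mul] at this

theorem nf_mul_sq {a c b : K} (hc : c ≠ 0) : NF (a * c ^ 2) b ↔ NF a b := by
  rw [mul_comm]
  exact NF.mul_iff (pow_ne_zero 2 hc) (NF.sq c b)

theorem nf_mul_sq_right {a c b : K} (hc : c ≠ 0) : NF a (b * c ^ 2) ↔ NF a b := by
  constructor
  · rintro ⟨x, y, h⟩
    exact ⟨x, c * y, by rw [h]; ring⟩
  · rintro ⟨x, y, h⟩
    exact ⟨x, y / c, by rw [h]; field_simp⟩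

theorem nf_of_isSquare_right (h2 : (2 : K) ≠ 0) {a b : K} (hb : b ≠ 0) (h : IsSquare b) :
    NF a b := by
  obtain ⟨c, rfl⟩ := h
  have hc : c ≠ 0 := by rintro rfl; simp at hb
  exact ⟨(a + 1) / 2, (a - 1) / (2 * c), by field_simp; ring⟩

theorem nf_of_isSquare_left {a b : K} (h : IsSquare a) : NF a b := by
  obtain ⟨c, rfl⟩ := h
  exact ⟨c, 0, by ring⟩

/-- isotropy of `a x² + b y² - z²`. -/
theorem iso3_iff (h2 : (2 : K) ≠ 0) {a b : K} (hb : b ≠ 0) :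
    (∃ x y z : K, (x ≠ 0 ∨ y ≠ 0 ∨ z ≠ 0) ∧ a * x ^ 2 + b * y ^ 2 = z ^ 2) ↔ NF a b := by
  constructor
  · rintro ⟨x, y, z, hne, h⟩
    by_cases hx : x = 0
    · subst hx
      have hy : y ≠ 0 := by
        rintro rfl
        have : z ^ 2 = 0 := by rw [← h]; ring
        have hz : z = 0 := by simpa using this
        simp [hz] at hne
      refine nf_of_isSquare_right h2 hb ⟨z / y, ?_⟩
      field_simp
      linear_combination h
    · refine ⟨z / x, y / x, ?_⟩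
      field_simp
      linear_combination h
  · rintro ⟨x, y, h⟩
    exact ⟨1, y, x, Or.inl one_ne_zero, by rw [h]; ring⟩

theorem nf_comm (h2 : (2 : K) ≠ 0) {a b : K} (ha : a ≠ 0) (hb : b ≠ 0) : NF a b ↔ NF b a := by
  rw [← iso3_iff h2 hb, ← iso3_iff h2 ha]
  constructor
  · rintro ⟨x, y, z, hne, h⟩
    exact ⟨y, x, z, by tauto, by rw [← h]; ring⟩
  · rintro ⟨x, y, z, hne, h⟩
    exact ⟨y, x, z, by tauto, by rw [← h]; ring⟩

theorem nf_mul_neg (h2 : (2 : K) ≠ 0) {a b : K} (ha : a ≠ 0) (hb : b ≠ 0) :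
    NF a b ↔ NF a (-a * b) := by
  rw [nf_comm h2 ha hb, nf_comm h2 ha (mul_ne_zero (neg_ne_zero.2 ha) hb)]
  exact (NF.mul_iff (neg_ne_zero.2 ha) (NF.neg_self a)).symm

variable (K) in
/-- every norm group has index at most two. -/
def IsHilbert : Prop := ∀ a a' b : K, a ≠ 0 → a' ≠ 0 → b ≠ 0 → ¬ NF a b → ¬ NF a' b →
  NF (a * a') b

open Classical in
/-- the Hilbert symbol (as the sign of the norm relation). -/
noncomputable def hs (a b : K) : ℤˣ := if NF a b then 1 else -1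

theorem hs_eq_one_iff {a b : K} : hs a b = 1 ↔ NF a b := by
  unfold hs
  split_ifs with h
  · simp [h]
  · simp [h]

theorem hs_eq_neg_one_iff {a b : K} : hs a b = -1 ↔ ¬ NF a b := by
  unfold hs
  split_ifs with h
  · simp [h]
  · simp [h]

theorem hs_congr {L : Type*} [Field L] {a b : K} {c d : L} (h : NF a b ↔ NF c d) :
    hs a b = hs c d := by
  by_cases h' : NF a b
  · rw [hs_eq_one_iff.2 h', hs_eq_one_iff.2 (h.1 h')]
  · rw [hs_eq_neg_one_iff.2 h', hs_eq_neg_one_iff.2 (fun h'' ↦ h' (h.2 h''))]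

theorem hs_comm (h2 : (2 : K) ≠ 0) {a b : K} (ha : a ≠ 0) (hb : b ≠ 0) : hs a b = hs b a := by
  exact hs_congr (nf_comm h2 ha hb)

theorem hs_mul_left (hK : IsHilbert K) {a a' b : K} (ha : a ≠ 0) (ha' : a' ≠ 0) (hb : b ≠ 0) :
    hs (a * a') b = hs a b * hs a' b := by
  by_cases h : NF a b
  · rw [hs_eq_one_iff.2 h, one_mul]
    exact hs_congr (NF.mul_iff ha h)
  · by_cases h' : NF a' b
    · rw [hs_eq_one_iff.2 h', mul_one, mul_comm]
      exact hs_congr (NF.mul_iff ha' h')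
    · rw [hs_eq_neg_one_iff.2 h, hs_eq_neg_one_iff.2 h', hs_eq_one_iff.2 (hK _ _ _ ha ha' hb h h')]
      rfl

theorem hs_mul_right (h2 : (2 : K) ≠ 0) (hK : IsHilbert K) {a b b' : K} (ha : a ≠ 0) (hb : b ≠ 0)
    (hb' : b' ≠ 0) : hs a (b * b') = hs a b * hs a b' := by
  rw [hs_comm h2 ha (mul_ne_zero hb hb'), hs_mul_left hK hb hb' ha, hs_comm h2 hb ha,
    hs_comm h2 hb' ha]

theorem hs_mul_sq_left {a c b : K} (hc : c ≠ 0) : hs (a * c ^ 2) b = hs a b := by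
  exact hs_congr (nf_mul_sq hc)

theorem hs_mul_sq_right {a c b : K} (hc : c ≠ 0) : hs a (b * c ^ 2) = hs a b := by
  exact hs_congr (nf_mul_sq_right hc)

end Fermat.Agent.P2.Conic
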