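import Fermat.Agent.P2.Conic.Unit

/-!
# The norm relation over `ℚ_p`, `p` odd
-/

namespace Fermat.Agent.P2.Conic

open Polynomial

variable {p : ℕ} [hp : Fact p.Prime]

theorem toZMod_eq_zero_iff (x : ℤ_[p]) : PadicInt.toZMod x = 0 ↔ ‖x‖ < 1 := by
  rw [← RingHom.mem_ker, PadicInt.ker_toZMod, IsLocalRing.mem_maximalIdeal, PadicInt.mem_nonunits]

theorem toZMod_ne_zero_iff (x : ℤ_[p]) : PadicInt.toZMod x ≠ 0 ↔ ‖x‖ = 1 := by
  rw [Ne, toZMod_eq_zero_iff, not_lt]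
  exact ⟨fun h ↦ le_antisymm (PadicInt.norm_le_one x) h, fun h ↦ h.ge⟩

theorem toZMod_unit_ne_zero (u : ℤ_[p]ˣ) : PadicInt.toZMod (u : ℤ_[p]) ≠ 0 :=
  (toZMod_ne_zero_iff _).2 (PadicInt.norm_units u)

theorem exists_lift (c : ZMod p) : ∃ c' : ℤ_[p], PadicInt.toZMod c' = c :=
  ⟨(c.val : ℤ_[p]), by rw [map_natCast, ZMod.natCast_val, ZMod.cast_id', id]⟩

theorem norm_two_eq_one (hp2 : p ≠ 2) : ‖(2 : ℤ_[p])‖ = 1 := by
  rw [← toZMod_ne_zero_iff, map_ofNat]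
  exact fun h ↦ hp2 ((ZMod.natCast_eq_zero_iff 2 p).1 (by exact_mod_cast h) |>
    (Nat.prime_dvd_prime_iff_eq hp.out Nat.prime_two).1)

theorem isSquare_of_toZMod (hp2 : p ≠ 2) (u : ℤ_[p]) (hu : ‖u‖ = 1)
    (h : IsSquare (PadicInt.toZMod u)) : IsSquare u := by
  obtain ⟨c, hc⟩ := h
  have hc0 : c ≠ 0 := by
    rintro rfl
    rw [zero_mul] at hc
    exact (toZMod_ne_zero_iff u).2 hu hc
  obtain ⟨c', rfl⟩ := exists_lift c
  refine isSquare_of_near c' u ?_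
  have h1 : ‖c'‖ = 1 := (toZMod_ne_zero_iff c').1 hc0
  have h2 : ‖c' ^ 2 - u‖ < 1 := by
    rw [← toZMod_eq_zero_iff, map_sub, map_pow, hc]; ring
  rw [norm_mul, norm_two_eq_one hp2, h1]
  simpa using h2

theorem isSquare_unit_iff (hp2 : p ≠ 2) (u : ℤ_[p]ˣ) :
    IsSquare ((u : ℤ_[p]) : ℚ_[p]) ↔ IsSquare (PadicInt.toZMod (u : ℤ_[p])) := by
  constructor
  · rintro ⟨c, hc⟩
    have hn : ‖c‖ = 1 := by
      have h1 := norm_unit u
      rw [hc, norm_mul, ← sq] at h1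
      exact (pow_eq_one_iff_of_nonneg (norm_nonneg c) two_ne_zero).1 h1
    obtain ⟨c', rfl⟩ := exists_unit_of_norm hn
    have : (u : ℤ_[p]) = c' * c' := by
      apply Subtype.ext
      simpa using hc
    rw [this, map_mul]
    exact ⟨_, rfl⟩
  · intro h
    obtain ⟨c, hc⟩ := isSquare_of_toZMod hp2 (u : ℤ_[p]) (PadicInt.norm_units u) h
    refine ⟨(c : ℚ_[p]), ?_⟩
    rw [hc]; simp

theorem two_ne_zero' : (2 : ℚ_[p]) ≠ 0 := two_ne_zero

theorem nf_unit_unit (hp2 : p ≠ 2) (u v : ℤ_[p]ˣ) :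
    NF ((u : ℤ_[p]) : ℚ_[p]) ((v : ℤ_[p]) : ℚ_[p]) := by
  have hv0 := toZMod_unit_ne_zero v
  have hu0 := toZMod_unit_ne_zero u
  set ub := PadicInt.toZMod (u : ℤ_[p]) with hub
  set vb := PadicInt.toZMod (v : ℤ_[p]) with hvb
  have hodd : Fintype.card (ZMod p) % 2 = 1 := by
    rw [ZMod.card]
    exact (hp.out.eq_two_or_odd).resolve_left hp2
  obtain ⟨a, b, hab⟩ := FiniteField.exists_root_sum_quadratic (R := ZMod p)
    (f := X ^ 2 - C ub) (g := C (-vb) * X ^ 2) (degree_X_pow_sub_C two_pos ub)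
    (by rw [degree_C_mul (neg_ne_zero.2 hv0), degree_X_pow]; rfl) hodd
  simp only [eval_sub, eval_pow, eval_X, eval_C, eval_mul] at hab
  obtain ⟨b', hb'⟩ := exists_lift b
  by_cases ha : a = 0
  · subst ha
    have h1 : IsSquare (-(u : ℤ_[p]) * v) := by
      apply isSquare_of_toZMod hp2
      · rw [norm_mul, norm_neg, PadicInt.norm_units, PadicInt.norm_units, one_mul]
      · rw [map_mul, map_neg, ← hub, ← hvb]
        refine ⟨vb * b, ?_⟩
        linear_combination vb * hab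
    obtain ⟨z, hz⟩ := h1
    have hz' : -((u : ℤ_[p]) : ℚ_[p]) * ((v : ℤ_[p]) : ℚ_[p]) = (z : ℚ_[p]) * z := by
      have := congrArg (fun t : ℤ_[p] ↦ (t : ℚ_[p])) hz
      simpa using this
    have hv1 := unit_ne_zero v
    refine ⟨0, (z : ℚ_[p]) / ((v : ℤ_[p]) : ℚ_[p]), ?_⟩
    field_simp
    linear_combination -hz'
  · have h1 : IsSquare ((u : ℤ_[p]) + (v : ℤ_[p]) * b' ^ 2) := by
      have h2 : PadicInt.toZMod ((u : ℤ_[p]) + (v : ℤ_[p]) * b' ^ 2) = a * a := by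
        rw [map_add, map_mul, map_pow, hb', ← hub, ← hvb]
        linear_combination -hab
      apply isSquare_of_toZMod hp2
      · rw [← toZMod_ne_zero_iff, h2]
        exact mul_ne_zero ha ha
      · rw [h2]; exact ⟨a, rfl⟩
    obtain ⟨z, hz⟩ := h1
    have hz' : ((u : ℤ_[p]) : ℚ_[p]) + ((v : ℤ_[p]) : ℚ_[p]) * (b' : ℚ_[p]) ^ 2
        = (z : ℚ_[p]) * z := by
      have := congrArg (fun t : ℤ_[p] ↦ (t : ℚ_[p])) hz
      simpa using this
    exact ⟨z, b', by linear_combination hz'⟩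

theorem even_of_nf (v : ℤ_[p]ˣ) (hv : ¬ IsSquare (PadicInt.toZMod (v : ℤ_[p])))
    {a : ℚ_[p]} (ha : a ≠ 0) (h : NF a ((v : ℤ_[p]) : ℚ_[p])) : Even a.valuation := by
  obtain ⟨x, y, hxy⟩ := h
  have hne : x ≠ 0 ∨ y ≠ 0 := by
    by_contra hcon
    push Not at hcon
    rw [hcon.1, hcon.2] at hxy
    apply ha; rw [hxy]; ring
  obtain ⟨x', y', m, rfl, rfl, h1⟩ := exists_primitive hne
  have hpm : ((p : ℚ_[p]) ^ m) ≠ 0 := zpow_ne_zero _ p_ne_zero
  have h2 : ‖x' ^ 2 - v * y' ^ 2‖ = 1 := by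
    rw [← toZMod_ne_zero_iff, map_sub, map_mul, map_pow, map_pow]
    intro h3
    by_cases hy : PadicInt.toZMod y' = 0
    · rw [hy] at h3
      have hx : PadicInt.toZMod x' = 0 := by
        have : (PadicInt.toZMod x') ^ 2 = 0 := by linear_combination h3
        simpa using this
      rcases h1 with h1 | h1
      · exact (toZMod_ne_zero_iff x').2 h1 hx
      · exact (toZMod_ne_zero_iff y').2 h1 hy
    · apply hv
      refine ⟨PadicInt.toZMod x' / PadicInt.toZMod y', ?_⟩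
      field_simp
      linear_combination -h3
  obtain ⟨w, hw⟩ := PadicInt.isUnit_iff.2 h2
  have ha' : a = ((w : ℤ_[p]) : ℚ_[p]) * ((p : ℚ_[p]) ^ m) ^ 2 := by
    rw [hxy, hw]; push_cast; ring
  rw [ha', Padic.valuation_mul (unit_ne_zero w) (pow_ne_zero 2 hpm), val_unit,
    Padic.valuation_pow, Padic.valuation_zpow, Padic.valuation_p]
  exact ⟨m, by push_cast; ring⟩

theorem nf_unit_right_iff (hp2 : p ≠ 2) (v : ℤ_[p]ˣ) {a : ℚ_[p]} (ha : a ≠ 0) :
    NF a ((v : ℤ_[p]) : ℚ_[p]) ↔ IsSquare ((v : ℤ_[p]) : ℚ_[p]) ∨ Even a.valuation := by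
  constructor
  · intro h
    by_cases hv : IsSquare ((v : ℤ_[p]) : ℚ_[p])
    · exact Or.inl hv
    · exact Or.inr (even_of_nf v (fun h' ↦ hv ((isSquare_unit_iff hp2 v).2 h')) ha h)
  · rintro (h | h)
    · exact nf_of_isSquare_right two_ne_zero (unit_ne_zero v) h
    · obtain ⟨u, c, hc, rfl⟩ := exists_rep_even ha h
      rw [nf_mul_sq hc]
      exact nf_unit_unit hp2 u v

theorem isSquare_mul_sq_iff {K : Type*} [Field K] {b c : K} (hc : c ≠ 0) :
    IsSquare (b * c ^ 2) ↔ IsSquare b := by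
  constructor
  · rintro ⟨d, hd⟩
    exact ⟨d / c, by field_simp; linear_combination hd⟩
  · rintro ⟨d, rfl⟩
    exact ⟨d * c, by ring⟩

/-- evaluation when the second argument has even valuation. -/
theorem nf_even_right_iff (hp2 : p ≠ 2) {a b : ℚ_[p]} (ha : a ≠ 0) (hb : b ≠ 0)
    (hbe : Even b.valuation) : NF a b ↔ IsSquare b ∨ Even a.valuation := by
  obtain ⟨v, c, hc, rfl⟩ := exists_rep_even hb hbe
  rw [nf_mul_sq_right hc, nf_unit_right_iff hp2 v ha, isSquare_mul_sq_iff hc]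

theorem isSquare_mul_of_not (hp2 : p ≠ 2) {a b : ℚ_[p]} (ha0 : a ≠ 0) (hb0 : b ≠ 0)
    (hae : Even a.valuation) (hbe : Even b.valuation) (ha : ¬ IsSquare a) (hb : ¬ IsSquare b) :
    IsSquare (a * b) := by
  obtain ⟨u, c, hc, rfl⟩ := exists_rep_even ha0 hae
  obtain ⟨v, d, hd, rfl⟩ := exists_rep_even hb0 hbe
  rw [isSquare_mul_sq_iff hc, isSquare_unit_iff hp2] at ha
  rw [isSquare_mul_sq_iff hd, isSquare_unit_iff hp2] at hb
  have h1 : ((u : ℤ_[p]) : ℚ_[p]) * c ^ 2 * (((v : ℤ_[p]) : ℚ_[p]) * d ^ 2)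
      = (((u * v : ℤ_[p]ˣ) : ℤ_[p]) : ℚ_[p]) * (c * d) ^ 2 := by
    push_cast; ring
  rw [h1, isSquare_mul_sq_iff (mul_ne_zero hc hd), isSquare_unit_iff hp2]
  rw [Units.val_mul, map_mul]
  have h3 := toZMod_unit_ne_zero u
  have h4 := toZMod_unit_ne_zero v
  rw [ZMod.euler_criterion p h3] at ha
  rw [ZMod.euler_criterion p h4] at hb
  rw [ZMod.euler_criterion p (mul_ne_zero h3 h4), mul_pow]
  have h5 := (ZMod.pow_div_two_eq_neg_one_or_one p h3).resolve_left ha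
  have h6 := (ZMod.pow_div_two_eq_neg_one_or_one p h4).resolve_left hb
  rw [h5, h6]; ring

theorem valuation_neg' (x : ℚ_[p]) : (-x).valuation = x.valuation := by
  by_cases hx : x = 0
  · subst hx; simp
  · have h1 : -x = (((-1 : ℤ_[p]ˣ) : ℤ_[p]) : ℚ_[p]) * x := by
      push_cast; ring
    rw [h1, Padic.valuation_mul (unit_ne_zero _) hx, val_unit, zero_add]

theorem isHilbert_odd (hp2 : p ≠ 2) : IsHilbert ℚ_[p] := by
  intro a a' b ha ha' hb h h'
  by_cases hbe : Even b.valuation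
  · rw [nf_even_right_iff hp2 ha hb hbe, not_or] at h
    rw [nf_even_right_iff hp2 ha' hb hbe, not_or] at h'
    rw [nf_even_right_iff hp2 (mul_ne_zero ha ha') hb hbe]
    right
    rw [Padic.valuation_mul ha ha']
    rw [Int.not_even_iff_odd] at h h'
    exact h.2.add_odd h'.2
  · -- replace elements of odd valuation by `-b * a`
    have hb1 : Odd b.valuation := Int.not_even_iff_odd.1 hbe
    have hnb : -b ≠ 0 := neg_ne_zero.2 hb
    have key : ∀ a : ℚ_[p], a ≠ 0 → Even a.valuation → (NF a b ↔ IsSquare a) := by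
      intro a ha hae
      rw [nf_comm two_ne_zero ha hb, nf_even_right_iff hp2 hb ha hae]
      simp [hbe]
    have hvneg : ∀ x : ℚ_[p], (-x).valuation = x.valuation := fun x ↦ valuation_neg' x
    have key2 : ∀ a : ℚ_[p], a ≠ 0 → ∃ t : ℚ_[p], (t = 1 ∨ t = -b) ∧ Even (t * a).valuation := by
      intro a ha
      by_cases hae : Even a.valuation
      · exact ⟨1, Or.inl rfl, by rwa [one_mul]⟩
      · refine ⟨-b, Or.inr rfl, ?_⟩
        rw [Padic.valuation_mul hnb ha, hvneg]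
        exact hb1.add_odd (Int.not_even_iff_odd.1 hae)
    have ht : ∀ t : ℚ_[p], (t = 1 ∨ t = -b) → t ≠ 0 ∧ NF t b := by
      rintro t (rfl | rfl)
      · exact ⟨one_ne_zero, NF.one b⟩
      · exact ⟨hnb, NF.neg_self b⟩
    obtain ⟨t, ht1, hte⟩ := key2 a ha
    obtain ⟨t', ht1', hte'⟩ := key2 a' ha'
    obtain ⟨ht0, htn⟩ := ht t ht1
    obtain ⟨ht0', htn'⟩ := ht t' ht1'
    rw [← NF.mul_iff ht0 htn, key _ (mul_ne_zero ht0 ha) hte] at h
    rw [← NF.mul_iff ht0' htn', key _ (mul_ne_zero ht0' ha') hte'] at h'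
    have h1 := isSquare_mul_of_not hp2 (mul_ne_zero ht0 ha) (mul_ne_zero ht0' ha') hte hte' h h'
    have h2 : NF (t * a * (t' * a')) b := nf_of_isSquare_left h1
    rw [show t * a * (t' * a') = t * (t' * (a * a')) by ring, NF.mul_iff ht0 htn,
      NF.mul_iff ht0' htn'] at h2
    exact h2

end Fermat.Agent.P2.Conic
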