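import Fermat.Agent.P2.Conic.TwoEval

/-!
# The product formula for the Hilbert symbol over `ℚ`
-/

namespace Fermat.Agent.P2.Conic

section local_

variable {p : ℕ} [hp : Fact p.Prime]

theorem isSquare_int_iff (hp2 : p ≠ 2) {b : ℤ} (hb : ¬ (p : ℤ) ∣ b) :
    IsSquare (b : ℚ_[p]) ↔ IsSquare (b : ZMod p) := by
  have h1 : ‖(b : ℤ_[p])‖ = 1 := by
    rw [← toZMod_ne_zero_iff, map_intCast, Ne, ZMod.intCast_zmod_eq_zero_iff_dvd]
    exact hb
  obtain ⟨u, hu⟩ := PadicInt.isUnit_iff.2 h1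
  have h2 := isSquare_unit_iff hp2 u
  rw [hu, map_intCast, PadicInt.coe_intCast] at h2
  exact h2

theorem isHilbert_padic : IsHilbert ℚ_[p] := by
  by_cases h : p = 2
  · subst h
    have : hp = ⟨Nat.prime_two⟩ := Subsingleton.elim _ _
    exact isHilbert_two
  · exact isHilbert_odd h

theorem val_int_eq_zero {b : ℤ} (hb : ¬ (p : ℤ) ∣ b) : (b : ℚ_[p]).valuation = 0 := by
  rw [Padic.valuation_intCast]
  rw [padicValInt.eq_zero_iff.2 (Or.inr (Or.inr hb))]
  rfl

/-- evaluation at `p` of `(p, b)`. -/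
theorem nf_p_iff (hp2 : p ≠ 2) {b : ℤ} (hb : ¬ (p : ℤ) ∣ b) :
    NF (p : ℚ_[p]) (b : ℚ_[p]) ↔ IsSquare (b : ZMod p) := by
  have hb0 : (b : ℚ_[p]) ≠ 0 := by
    have : b ≠ 0 := by rintro rfl; simp at hb
    exact_mod_cast this
  rw [nf_even_right_iff hp2 p_ne_zero hb0 (by rw [val_int_eq_zero hb]; exact Even.zero),
    Padic.valuation_p, isSquare_int_iff hp2 hb]
  simp

/-- triviality at odd primes when both valuations are even. -/
theorem nf_of_even (hp2 : p ≠ 2) {a b : ℚ_[p]} (ha : a ≠ 0) (hb : b ≠ 0)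
    (hae : Even a.valuation) (hbe : Even b.valuation) : NF a b :=
  (nf_even_right_iff hp2 ha hb hbe).2 (Or.inr hae)

end local_

/-- the symbol at `p` of two rational numbers. -/
noncomputable def hsp (p : Nat.Primes) (a b : ℚ) : ℤˣ :=
  haveI : Fact (p : ℕ).Prime := ⟨p.2⟩
  hs (a : ℚ_[(p : ℕ)]) (b : ℚ_[(p : ℕ)])

theorem hsp_eq_one_iff {p : Nat.Primes} {a b : ℚ} : hsp p a b = 1 ↔
    (haveI : Fact (p : ℕ).Prime := ⟨p.2⟩
    NF (a : ℚ_[(p : ℕ)]) (b : ℚ_[(p : ℕ)])) := hs_eq_one_iff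

/-- the product formula for the pair `a, b`. -/
structure PF (a b : ℚ) : Prop where
  fin : (Function.mulSupport fun p ↦ hsp p a b).Finite
  prod : hs (a : ℝ) (b : ℝ) * ∏ᶠ p, hsp p a b = 1

theorem finite_primes_dvd {n : ℕ} (hn : n ≠ 0) : {p : Nat.Primes | (p : ℕ) ∣ n}.Finite := by
  have h1 : (n.primeFactors : Set ℕ).Finite := Finset.finite_toSet _
  refine (h1.preimage (f := ((↑) : Nat.Primes → ℕ)) (Subtype.val_injective.injOn)).subset ?_
  intro p hp
  simp only [Set.mem_preimage, Finset.mem_coe, Nat.mem_primeFactors]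
  exact ⟨p.2, hp, hn⟩

theorem hsp_eq_one_of_even {p : Nat.Primes} (hp2 : (p : ℕ) ≠ 2) {a b : ℚ} (ha : a ≠ 0) (hb : b ≠ 0)
    (hae : Even (padicValRat p a)) (hbe : Even (padicValRat p b)) : hsp p a b = 1 := by
  rw [hsp_eq_one_iff]
  have : Fact (p : ℕ).Prime := ⟨p.2⟩
  exact nf_of_even hp2 (by exact_mod_cast ha) (by exact_mod_cast hb)
    (by rwa [Padic.valuation_ratCast]) (by rwa [Padic.valuation_ratCast])

theorem padicValRat_eq_zero' {p : ℕ} {a : ℚ} (h1 : ¬ p ∣ a.num.natAbs)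
    (h2 : ¬ p ∣ a.den) : padicValRat p a = 0 := by
  unfold padicValRat
  rw [padicValInt, padicValNat.eq_zero_of_not_dvd h1, padicValNat.eq_zero_of_not_dvd h2]
  simp

theorem finite_support {a b : ℚ} (ha : a ≠ 0) (hb : b ≠ 0) :
    (Function.mulSupport fun p ↦ hsp p a b).Finite := by
  have hn : 2 * a.num.natAbs * a.den * b.num.natAbs * b.den ≠ 0 := by
    have h1 : a.num.natAbs ≠ 0 := by simpa using ha
    have h2 : b.num.natAbs ≠ 0 := by simpa using hb
    have h3 := a.den_ne_zero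
    have h4 := b.den_ne_zero
    positivity
  refine (finite_primes_dvd hn).subset ?_
  intro p hp
  simp only [Function.mem_mulSupport, Ne] at hp
  simp only [Set.mem_ofPred_eq]
  by_contra hcon
  apply hp
  have h1 : ¬ (p : ℕ) ∣ b.den := fun h ↦ hcon (Dvd.dvd.mul_left h _)
  have h2 : ¬ (p : ℕ) ∣ b.num.natAbs := fun h ↦
    hcon ((h.mul_left _).mul_right _)
  have h3 : ¬ (p : ℕ) ∣ a.den := fun h ↦
    hcon (((h.mul_left _).mul_right _).mul_right _)
  have h4 : ¬ (p : ℕ) ∣ a.num.natAbs := fun h ↦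
    hcon ((((h.mul_left _).mul_right _).mul_right _).mul_right _)
  have h5 : (p : ℕ) ≠ 2 := by
    intro h
    apply hcon
    rw [h]
    exact ((((dvd_refl 2).mul_right _).mul_right _).mul_right _).mul_right _
  refine hsp_eq_one_of_even h5 ha hb ?_ ?_
  · rw [padicValRat_eq_zero' h4 h3]; exact Even.zero
  · rw [padicValRat_eq_zero' h2 h1]; exact Even.zero

theorem hsp_mul_left (p : Nat.Primes) {a a' b : ℚ} (ha : a ≠ 0) (ha' : a' ≠ 0) (hb : b ≠ 0) :
    hsp p (a * a') b = hsp p a b * hsp p a' b := by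
  haveI : Fact (p : ℕ).Prime := ⟨p.2⟩
  unfold hsp
  rw [Rat.cast_mul]
  exact hs_mul_left isHilbert_padic (by exact_mod_cast ha) (by exact_mod_cast ha')
    (by exact_mod_cast hb)

theorem hsp_comm (p : Nat.Primes) {a b : ℚ} (ha : a ≠ 0) (hb : b ≠ 0) :
    hsp p a b = hsp p b a := by
  haveI : Fact (p : ℕ).Prime := ⟨p.2⟩
  unfold hsp
  exact hs_comm two_ne_zero (by exact_mod_cast ha) (by exact_mod_cast hb)

theorem PF.symm {a b : ℚ} (ha : a ≠ 0) (hb : b ≠ 0) (h : PF a b) : PF b a := by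
  have h1 : (fun p ↦ hsp p b a) = fun p ↦ hsp p a b := by
    funext p; exact hsp_comm p hb ha
  refine ⟨?_, ?_⟩
  · rw [h1]; exact h.fin
  · rw [show (∏ᶠ p, hsp p b a) = ∏ᶠ p, hsp p a b by rw [h1],
      hs_comm two_ne_zero (by exact_mod_cast hb) (by exact_mod_cast ha)]
    exact h.prod

theorem PF.mul {a a' b : ℚ} (ha : a ≠ 0) (ha' : a' ≠ 0) (hb : b ≠ 0) (h : PF a b) (h' : PF a' b) :
    PF (a * a') b := by
  refine ⟨finite_support (mul_ne_zero ha ha') hb, ?_⟩
  have h1 : (fun p ↦ hsp p (a * a') b) = fun p ↦ hsp p a b * hsp p a' b := by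
    funext p; exact hsp_mul_left p ha ha' hb
  rw [h1, finprod_mul_distrib h.fin h'.fin, Rat.cast_mul,
    hs_mul_left isHilbert_real (by exact_mod_cast ha) (by exact_mod_cast ha')
      (by exact_mod_cast hb)]
  calc _ = (hs (a : ℝ) (b : ℝ) * ∏ᶠ p, hsp p a b) * (hs (a' : ℝ) (b : ℝ) * ∏ᶠ p, hsp p a' b) := by
        rw [mul_mul_mul_comm]
    _ = 1 := by rw [h.prod, h'.prod, one_mul]

theorem PF.of_nf {a b : ℚ} (h : NF a b) : PF a b := by
  have hloc : ∀ p : Nat.Primes, hsp p a b = 1 := by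
    intro p
    rw [hsp_eq_one_iff]
    haveI : Fact (p : ℕ).Prime := ⟨p.2⟩
    obtain ⟨x, y, h⟩ := h
    exact ⟨x, y, by rw [h]; push_cast; ring⟩
  refine ⟨?_, ?_⟩
  · rw [Function.mulSupport_eq_empty_iff.2 (funext hloc)]
    exact Set.finite_empty
  · rw [finprod_eq_one_of_forall_eq_one hloc, mul_one, hs_eq_one_iff]
    obtain ⟨x, y, h⟩ := h
    exact ⟨x, y, by rw [h]; push_cast; ring⟩

theorem PF.congr_hs {a b a' b' : ℚ} (h : PF a b) (h1 : ∀ p, hsp p a' b' = hsp p a b)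
    (h2 : hs (a' : ℝ) (b' : ℝ) = hs (a : ℝ) (b : ℝ)) : PF a' b' := by
  have h3 : (fun p ↦ hsp p a' b') = fun p ↦ hsp p a b := funext h1
  refine ⟨?_, ?_⟩
  · rw [h3]; exact h.fin
  · rw [h3, h2]; exact h.prod

theorem PF.inv {a b : ℚ} (ha : a ≠ 0) (h : PF a b) : PF a⁻¹ b := by
  refine h.congr_hs (fun p ↦ ?_) ?_
  · haveI : Fact (p : ℕ).Prime := ⟨p.2⟩
    unfold hsp
    have ha' : (a : ℚ_[(p : ℕ)]) ≠ 0 := by exact_mod_cast ha
    have : ((a⁻¹ : ℚ) : ℚ_[(p : ℕ)]) = (a : ℚ_[(p : ℕ)]) * ((a : ℚ_[(p : ℕ)])⁻¹) ^ 2 := by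
      push_cast; field_simp
    rw [this, hs_mul_sq_left (inv_ne_zero ha')]
  · have ha' : (a : ℝ) ≠ 0 := by exact_mod_cast ha
    have : ((a⁻¹ : ℚ) : ℝ) = (a : ℝ) * ((a : ℝ)⁻¹) ^ 2 := by
      push_cast; field_simp
    rw [this, hs_mul_sq_left (inv_ne_zero ha')]

/-- induction on nonzero rationals. -/
theorem rat_induction {P : ℚ → Prop} (h1 : P (-1)) (hp : ∀ p : ℕ, p.Prime → P p)
    (hone : P 1) (hmul : ∀ a b : ℚ, a ≠ 0 → b ≠ 0 → P a → P b → P (a * b))
    (hinv : ∀ a : ℚ, a ≠ 0 → P a → P a⁻¹) (a : ℚ) (ha : a ≠ 0) : P a := by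
  have hnat : ∀ n : ℕ, n ≠ 0 → P n := by
    intro n
    induction n using induction_on_primes with
    | zero => intro h; exact absurd rfl h
    | one => intro _; simpa using hone
    | prime_mul p n hpp ih =>
      intro hn
      have hn' : n ≠ 0 := fun h ↦ hn (by rw [h, mul_zero])
      rw [Nat.cast_mul]
      exact hmul _ _ (by exact_mod_cast hpp.ne_zero) (by exact_mod_cast hn') (hp p hpp) (ih hn')
  have hint : ∀ n : ℤ, n ≠ 0 → P n := by
    intro n hn
    obtain ⟨m, rfl | rfl⟩ := Int.eq_nat_or_neg n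
    · rw [Int.cast_natCast]
      exact hnat _ (by exact_mod_cast hn)
    · have hm : m ≠ 0 := by
        rintro rfl; simp at hn
      have h2 : ((-(m : ℤ) : ℤ) : ℚ) = (-1) * (m : ℚ) := by
        push_cast; ring
      rw [h2]
      exact hmul _ _ (by norm_num) (by exact_mod_cast hm) h1 (hnat _ hm)
  have h3 : a = (a.num : ℚ) * ((a.den : ℚ))⁻¹ := by
    rw [← div_eq_mul_inv, Rat.num_div_den]
  have hn : a.num ≠ 0 := by simpa using ha
  have hd : (a.den : ℚ) ≠ 0 := by exact_mod_cast a.den_ne_zero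
  rw [h3]
  exact hmul _ _ (by exact_mod_cast hn) (inv_ne_zero hd) (hint _ hn) (hinv _ hd (hnat _ a.den_ne_zero))

theorem hsp_mk (q : ℕ) [hq : Fact q.Prime] (a b : ℚ) :
    hsp ⟨q, hq.out⟩ a b = hs (a : ℚ_[q]) (b : ℚ_[q]) := rfl

/-- the prime 2 -/
def pTwo : Nat.Primes := ⟨2, Nat.prime_two⟩

theorem hsp_two (a b : ℚ) : hsp pTwo a b = hs (a : ℚ_[2]) (b : ℚ_[2]) := rfl

theorem pf_neg_neg : PF (-1) (-1) := by
  refine ⟨finite_support (by norm_num) (by norm_num), ?_⟩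
  rw [finprod_eq_single _ pTwo]
  · have h1 : hs (((-1 : ℚ)) : ℝ) (((-1 : ℚ)) : ℝ) = -1 := by
      rw [hs_eq_neg_one_iff, nf_real_iff (by norm_num) (by norm_num)]
      norm_num
    have h2 : hsp pTwo (-1) (-1) = -1 := by
      rw [hsp_two, hs_eq_neg_one_iff]
      have h3 := nf_two_adic_odd (-1) (-1) (by decide) (by decide)
      push_cast at h3 ⊢
      rw [h3]
      decide
    rw [h1, h2]; rfl
  · intro p hp
    have hp2 : (p : ℕ) ≠ 2 := fun h ↦ hp (Subtype.ext h)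
    refine hsp_eq_one_of_even hp2 (by norm_num) (by norm_num) ?_ ?_ <;> simp

theorem pf_neg_two : PF (-1) 2 := PF.of_nf ⟨1, 1, by norm_num⟩

theorem padicValRat_prime_ne {p q : ℕ} (hp : p.Prime) (hq : q.Prime) (h : p ≠ q) :
    padicValRat p q = 0 := by
  rw [padicValRat.of_nat]
  have : ¬ p ∣ q := fun h' ↦ h ((Nat.prime_dvd_prime_iff_eq hp hq).1 h')
  rw [padicValNat.eq_zero_of_not_dvd this]; rfl

theorem pf_neg_prime {q : ℕ} (hq : q.Prime) (hq2 : q ≠ 2) : PF (-1) q := by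
  have hq0 : (q : ℚ) ≠ 0 := by exact_mod_cast hq.ne_zero
  haveI : Fact q.Prime := ⟨hq⟩
  refine ⟨finite_support (by norm_num) hq0, ?_⟩
  set Q : Nat.Primes := ⟨q, hq⟩ with hQ
  have hne : pTwo ≠ Q := by
    intro h
    exact hq2 (congrArg Subtype.val h).symm
  rw [finprod_eq_prod_of_mulSupport_subset (s := {pTwo, Q})]
  · rw [Finset.prod_pair hne]
    have h1 : hs (((-1 : ℚ)) : ℝ) (((q : ℚ)) : ℝ) = 1 := by
      rw [hs_eq_one_iff, nf_real_iff (by norm_num) (by exact_mod_cast hq0)]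
      right
      have := hq.pos
      exact_mod_cast this
    have h2 : hsp pTwo (-1) q = 1 ↔ q % 4 ≠ 3 := by
      rw [hsp_two, hs_eq_one_iff]
      have h3 := nf_two_adic_odd (-1) q (by decide) (by
        have := hq.eq_two_or_odd; omega)
      push_cast at h3 ⊢
      rw [h3]
      have h4 : (-1 : ℤ) % 4 = 3 := by decide
      simp only [h4, true_and]
      omega
    have h3 : hsp Q (-1) q = 1 ↔ q % 4 ≠ 3 := by
      rw [hQ, hsp_mk, hs_eq_one_iff]
      have hnd : ¬ (q : ℤ) ∣ -1 := by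
        intro h
        have := Int.natAbs_dvd_natAbs.2 h
        simp only [Int.natAbs_natCast, Int.natAbs_neg, Int.natAbs_one, Nat.dvd_one] at this
        exact hq.one_lt.ne' this
      have h5 := nf_p_iff (p := q) hq2 (b := -1) hnd
      push_cast at h5 ⊢
      rw [nf_comm two_ne_zero (by norm_num) p_ne_zero, h5, ZMod.exists_sq_eq_neg_one_iff]
    rw [h1, one_mul]
    by_cases h : q % 4 ≠ 3
    · rw [h2.2 h, h3.2 h, one_mul]
    · have h4 := (Int.units_eq_one_or (hsp pTwo (-1) q)).resolve_left (fun h' ↦ h (h2.1 h'))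
      have h5 := (Int.units_eq_one_or (hsp Q (-1) q)).resolve_left (fun h' ↦ h (h3.1 h'))
      rw [h4, h5]; rfl
  · intro p hp
    simp only [Finset.coe_insert, Finset.coe_singleton, Set.mem_insert_iff, Set.mem_singleton_iff]
    by_contra hcon
    push Not at hcon
    apply hp
    have hp2 : (p : ℕ) ≠ 2 := fun h ↦ hcon.1 (Subtype.ext h)
    have hpq : (p : ℕ) ≠ q := fun h ↦ hcon.2 (Subtype.ext h)
    refine hsp_eq_one_of_even hp2 (by norm_num) hq0 (by simp) ?_
    rw [padicValRat_prime_ne p.2 hq hpq]; exact Even.zero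

theorem pf_two_prime {q : ℕ} (hq : q.Prime) (hq2 : q ≠ 2) : PF 2 q := by
  have hq0 : (q : ℚ) ≠ 0 := by exact_mod_cast hq.ne_zero
  haveI : Fact q.Prime := ⟨hq⟩
  refine ⟨finite_support (by norm_num) hq0, ?_⟩
  set Q : Nat.Primes := ⟨q, hq⟩ with hQ
  have hne : pTwo ≠ Q := by
    intro h
    exact hq2 (congrArg Subtype.val h).symm
  rw [finprod_eq_prod_of_mulSupport_subset (s := {pTwo, Q})]
  · rw [Finset.prod_pair hne]
    have h1 : hs (((2 : ℚ)) : ℝ) (((q : ℚ)) : ℝ) = 1 := by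
      rw [hs_eq_one_iff, nf_real_iff (by norm_num) (by exact_mod_cast hq0)]
      left
      norm_num
    have h2 : hsp pTwo 2 q = 1 ↔ (q % 8 = 1 ∨ q % 8 = 7) := by
      rw [hsp_two, hs_eq_one_iff]
      have h3 := nf_two_adic_two q (by
        have := hq.eq_two_or_odd; omega)
      push_cast at h3 ⊢
      rw [h3]
      omega
    have h3 : hsp Q 2 q = 1 ↔ (q % 8 = 1 ∨ q % 8 = 7) := by
      rw [hQ, hsp_mk, hs_eq_one_iff]
      have hnd : ¬ (q : ℤ) ∣ 2 := by
        intro h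
        have := Int.natAbs_dvd_natAbs.2 h
        simp only [Int.natAbs_natCast] at this
        exact hq2 ((Nat.prime_dvd_prime_iff_eq hq Nat.prime_two).1 this)
      have h5 := nf_p_iff (p := q) hq2 (b := 2) hnd
      push_cast at h5 ⊢
      rw [nf_comm two_ne_zero (by norm_num) p_ne_zero, h5, ZMod.exists_sq_eq_two_iff hq2]
    rw [h1, one_mul]
    by_cases h : (q % 8 = 1 ∨ q % 8 = 7)
    · rw [h2.2 h, h3.2 h, one_mul]
    · have h4 := (Int.units_eq_one_or (hsp pTwo 2 q)).resolve_left (fun h' ↦ h (h2.1 h'))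
      have h5 := (Int.units_eq_one_or (hsp Q 2 q)).resolve_left (fun h' ↦ h (h3.1 h'))
      rw [h4, h5]; rfl
  · intro p hp
    simp only [Finset.coe_insert, Finset.coe_singleton, Set.mem_insert_iff, Set.mem_singleton_iff]
    by_contra hcon
    push Not at hcon
    apply hp
    have hp2 : (p : ℕ) ≠ 2 := fun h ↦ hcon.1 (Subtype.ext h)
    have hpq : (p : ℕ) ≠ q := fun h ↦ hcon.2 (Subtype.ext h)
    refine hsp_eq_one_of_even hp2 (by norm_num) hq0 ?_ ?_
    · have := padicValRat_prime_ne p.2 Nat.prime_two hp2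
      rw [Nat.cast_ofNat] at this
      rw [this]; exact Even.zero
    · rw [padicValRat_prime_ne p.2 hq hpq]; exact Even.zero

theorem pf_prime_prime {q r : ℕ} (hq : q.Prime) (hr : r.Prime) (hq2 : q ≠ 2) (hr2 : r ≠ 2)
    (hqr : q ≠ r) : PF q r := by
  have hq0 : (q : ℚ) ≠ 0 := by exact_mod_cast hq.ne_zero
  have hr0 : (r : ℚ) ≠ 0 := by exact_mod_cast hr.ne_zero
  haveI : Fact q.Prime := ⟨hq⟩
  haveI : Fact r.Prime := ⟨hr⟩
  refine ⟨finite_support hq0 hr0, ?_⟩
  set Q : Nat.Primes := ⟨q, hq⟩ with hQ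
  set R : Nat.Primes := ⟨r, hr⟩ with hR
  have hne : pTwo ≠ Q := fun h ↦ hq2 (congrArg Subtype.val h).symm
  have hne' : pTwo ≠ R := fun h ↦ hr2 (congrArg Subtype.val h).symm
  have hne'' : Q ≠ R := fun h ↦ hqr (congrArg Subtype.val h)
  rw [finprod_eq_prod_of_mulSupport_subset (s := {pTwo, Q, R})]
  · rw [Finset.prod_insert (by simp [hne, hne']), Finset.prod_pair hne'']
    have h1 : hs (((q : ℚ)) : ℝ) (((r : ℚ)) : ℝ) = 1 := by
      rw [hs_eq_one_iff, nf_real_iff (by exact_mod_cast hq0) (by exact_mod_cast hr0)]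
      left
      have := hq.pos
      exact_mod_cast this
    have hqo : q % 2 = 1 := hq.eq_two_or_odd.resolve_left hq2
    have hro : r % 2 = 1 := hr.eq_two_or_odd.resolve_left hr2
    have h2 : hsp pTwo q r = 1 ↔ ¬ (q % 4 = 3 ∧ r % 4 = 3) := by
      rw [hsp_two, hs_eq_one_iff]
      have h3 := nf_two_adic_odd q r (by omega) (by omega)
      push_cast at h3 ⊢
      rw [h3]
      omega
    have hnd : ∀ a b : ℕ, a.Prime → b.Prime → a ≠ b → ¬ (a : ℤ) ∣ (b : ℤ) := by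
      intro a b ha hb hab h
      exact hab ((Nat.prime_dvd_prime_iff_eq ha hb).1 (by exact_mod_cast h))
    have h3 : hsp Q q r = 1 ↔ IsSquare ((r : ℕ) : ZMod q) := by
      rw [hQ, hsp_mk, hs_eq_one_iff]
      have h5 := nf_p_iff (p := q) hq2 (b := r) (hnd q r hq hr hqr)
      push_cast at h5 ⊢
      exact h5
    have h4 : hsp R q r = 1 ↔ IsSquare ((q : ℕ) : ZMod r) := by
      rw [hR, hsp_mk, hs_eq_one_iff]
      have h5 := nf_p_iff (p := r) hr2 (b := q) (hnd r q hr hq hqr.symm)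
      push_cast at h5 ⊢
      rw [nf_comm two_ne_zero (by exact_mod_cast hq0) p_ne_zero]
      exact h5
    rw [h1, one_mul]
    by_cases h : (q % 4 = 3 ∧ r % 4 = 3)
    · have h5 := (Int.units_eq_one_or (hsp pTwo q r)).resolve_left (fun h' ↦ (h2.1 h') h)
      have h6 := ZMod.exists_sq_eq_prime_iff_of_mod_four_eq_three (p := q) (q := r) h.1 h.2 hqr
      rw [h5]
      by_cases h7 : IsSquare ((r : ℕ) : ZMod q)
      · have h8 := (Int.units_eq_one_or (hsp R q r)).resolve_left (fun h' ↦ (h6.1 h7) (h4.1 h'))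
        rw [h8, h3.2 h7]; rfl
      · have h8 : hsp R q r = 1 := h4.2 (by
          by_contra hcon
          exact h7 (h6.2 hcon))
        have h9 := (Int.units_eq_one_or (hsp Q q r)).resolve_left (fun h' ↦ h7 (h3.1 h'))
        rw [h8, h9]; rfl
    · rw [h2.2 h, one_mul]
      have h6 : IsSquare ((r : ℕ) : ZMod q) ↔ IsSquare ((q : ℕ) : ZMod r) := by
        by_cases h7 : q % 4 = 1
        · exact ZMod.exists_sq_eq_prime_iff_of_mod_four_eq_one (p := q) (q := r) h7 hr2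
        · have h8 : r % 4 = 1 := by omega
          exact (ZMod.exists_sq_eq_prime_iff_of_mod_four_eq_one (p := r) (q := q) h8 hq2).symm
      by_cases h7 : IsSquare ((r : ℕ) : ZMod q)
      · rw [h3.2 h7, h4.2 (h6.1 h7), one_mul]
      · have h8 := (Int.units_eq_one_or (hsp Q q r)).resolve_left (fun h' ↦ h7 (h3.1 h'))
        have h9 := (Int.units_eq_one_or (hsp R q r)).resolve_left
          (fun h' ↦ h7 (h6.2 (h4.1 h')))
        rw [h8, h9]; rfl
  · intro p hp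
    simp only [Finset.coe_insert, Finset.coe_singleton, Set.mem_insert_iff, Set.mem_singleton_iff]
    by_contra hcon
    push Not at hcon
    apply hp
    have hp2 : (p : ℕ) ≠ 2 := fun h ↦ hcon.1 (Subtype.ext h)
    have hpq : (p : ℕ) ≠ q := fun h ↦ hcon.2.1 (Subtype.ext h)
    have hpr : (p : ℕ) ≠ r := fun h ↦ hcon.2.2 (Subtype.ext h)
    refine hsp_eq_one_of_even hp2 hq0 hr0 ?_ ?_
    · rw [padicValRat_prime_ne p.2 hq hpq]; exact Even.zero
    · rw [padicValRat_prime_ne p.2 hr hpr]; exact Even.zero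

theorem hs_self {K : Type*} [Field K] (h2 : (2 : K) ≠ 0) {a : K} (ha : a ≠ 0) :
    hs a a = hs (-1) a := by
  apply hs_congr
  rw [nf_mul_neg h2 ha ha, show -a * a = (-1) * a ^ 2 by ring, nf_mul_sq_right ha,
    nf_comm h2 ha (neg_ne_zero.2 one_ne_zero)]

theorem PF.self {a : ℚ} (ha : a ≠ 0) (h : PF (-1) a) : PF a a := by
  refine h.congr_hs (fun p ↦ ?_) ?_
  · haveI : Fact (p : ℕ).Prime := ⟨p.2⟩
    unfold hsp
    rw [hs_self two_ne_zero (by exact_mod_cast ha)]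
    push_cast; rfl
  · rw [hs_self two_ne_zero (by exact_mod_cast ha)]
    push_cast; rfl

theorem pf_gen {q : ℕ} (hq : q.Prime) : PF (-1) q := by
  by_cases h : q = 2
  · subst h; exact_mod_cast pf_neg_two
  · exact pf_neg_prime hq h

theorem pf_gen_gen {q r : ℕ} (hq : q.Prime) (hr : r.Prime) : PF q r := by
  have hq0 : (q : ℚ) ≠ 0 := by exact_mod_cast hq.ne_zero
  have hr0 : (r : ℚ) ≠ 0 := by exact_mod_cast hr.ne_zero
  by_cases h : q = r
  · subst h; exact PF.self hq0 (pf_gen hq)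
  · by_cases hq2 : q = 2
    · subst hq2
      exact_mod_cast pf_two_prime hr (Ne.symm h)
    · by_cases hr2 : r = 2
      · subst hr2
        exact (PF.symm hr0 hq0 (by exact_mod_cast pf_two_prime hq h))
      · exact pf_prime_prime hq hr hq2 hr2 h

/-- **The product formula.** -/
theorem product_formula {a b : ℚ} (ha : a ≠ 0) (hb : b ≠ 0) : PF a b := by
  have hmul : ∀ {b : ℚ}, b ≠ 0 → PF (-1) b → (∀ p : ℕ, p.Prime → PF p b) → ∀ a : ℚ, a ≠ 0 → PF a b := by
    intro b hb h1 h2 a ha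
    refine rat_induction (P := fun a ↦ PF a b) h1 h2 (PF.of_nf (NF.one b)) ?_ ?_ a ha
    · intro a a' ha ha' h h'
      exact PF.mul ha ha' hb h h'
    · intro a ha h
      exact PF.inv ha h
  have hneg : ∀ a : ℚ, a ≠ 0 → PF a (-1) :=
    hmul (by norm_num) pf_neg_neg
      (fun p hp ↦ PF.symm (by norm_num) (by exact_mod_cast hp.ne_zero) (pf_gen hp))
  have hprime : ∀ p : ℕ, p.Prime → ∀ a : ℚ, a ≠ 0 → PF a p := fun p hp ↦
    hmul (by exact_mod_cast hp.ne_zero) (pf_gen hp) (fun r hr ↦ pf_gen_gen hr hp)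
  exact hmul hb (PF.symm hb (by norm_num) (hneg b hb))
    (fun p hp ↦ PF.symm hb (by exact_mod_cast hp.ne_zero) (hprime p hp b hb)) a ha

end Fermat.Agent.P2.Conic
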