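import Fermat.Agent.P2.Conic.Odd

/-!
# The norm relation over `ℚ_2`
-/

namespace Fermat.Agent.P2.Conic

/-- reduction modulo 8 -/
noncomputable def r8 : ℤ_[2] →+* ZMod 8 :=
  (PadicInt.toZModPow (p := 2) 3 : ℤ_[2] →+* ZMod (2 ^ 3))

theorem r8_eq_zero_iff (x : ℤ_[2]) : r8 x = 0 ↔ ‖x‖ ≤ (2 : ℝ) ^ (-3 : ℤ) := by
  have h1 : r8 x = 0 ↔ x ∈ RingHom.ker (PadicInt.toZModPow (p := 2) 3) := Iff.rfl
  rw [h1, PadicInt.ker_toZModPow, ← PadicInt.norm_le_pow_iff_mem_span_pow]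
  norm_num

theorem norm_two : ‖(2 : ℤ_[2])‖ = 1 / 2 := by
  have := PadicInt.norm_p (p := 2)
  rw [Nat.cast_ofNat] at this
  rw [this]; norm_num

theorem isSquare_of_r8 (u : ℤ_[2]) (h : r8 u = 1) : IsSquare u := by
  refine isSquare_of_near 1 u ?_
  have h1 : r8 (1 ^ 2 - u) = 0 := by rw [map_sub, map_pow, map_one, h]; ring
  rw [r8_eq_zero_iff] at h1
  rw [mul_one, norm_two]
  refine h1.trans_lt ?_
  norm_num

theorem sq_eq_one_of_unit : ∀ x : ZMod 8, IsUnit x → x * x = 1 := by decide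

theorem r8_sq_of_norm_one {x : ℤ_[2]} (hx : ‖x‖ = 1) : r8 x * r8 x = 1 :=
  sq_eq_one_of_unit _ ((PadicInt.isUnit_iff.2 hx).map r8)

/-- the obstruction modulo 8. -/
theorem obstruction {a b : ℤ_[2]} (ha : (1 : ℝ) / 4 < ‖a‖) (h : NF (a : ℚ_[2]) (b : ℚ_[2])) :
    ∃ x y z : ZMod 8, (x * x = 1 ∨ y * y = 1) ∧ r8 a * z ^ 2 = x ^ 2 - r8 b * y ^ 2 := by
  obtain ⟨x, y, hxy⟩ := h
  have ha0 : (a : ℚ_[2]) ≠ 0 := by
    intro h0
    have : ‖a‖ = 0 := by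
      rw [PadicInt.norm_def, h0, norm_zero]
    rw [this] at ha; norm_num at ha
  have hne : x ≠ 0 ∨ y ≠ 0 := by
    by_contra hcon
    push Not at hcon
    rw [hcon.1, hcon.2] at hxy
    apply ha0; rw [hxy]; ring
  obtain ⟨x', y', m, rfl, rfl, h1⟩ := exists_primitive hne
  have h2 : (2 : ℚ_[2]) ≠ 0 := two_ne_zero
  have hpm : (((2 : ℕ) : ℚ_[2]) ^ m) ≠ 0 := zpow_ne_zero _ p_ne_zero
  set w : ℤ_[2] := x' ^ 2 - b * y' ^ 2 with hw
  have ha' : (a : ℚ_[2]) = (w : ℚ_[2]) * (((2 : ℕ) : ℚ_[2]) ^ m) ^ 2 := by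
    rw [hxy, hw]; push_cast; ring
  have hm : m ≤ 0 := by
    by_contra hcon
    push Not at hcon
    have h3 : ‖a‖ ≤ 1 / 4 := by
      rw [PadicInt.norm_def, ha', norm_mul, norm_pow, Padic.norm_p_zpow]
      have h4 : ‖(w : ℚ_[2])‖ ≤ 1 := PadicInt.norm_le_one w
      have h5 : (((2 : ℕ) : ℝ) ^ (-m)) ≤ 1 / 2 := by
        have : (((2 : ℕ) : ℝ) ^ (-m)) ≤ ((2 : ℕ) : ℝ) ^ (-1 : ℤ) := by
          apply zpow_le_zpow_right₀
          · norm_num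
          · omega
        refine this.trans ?_
        norm_num
      have h6 : (0 : ℝ) ≤ (((2 : ℕ) : ℝ) ^ (-m)) := by positivity
      have h7 : (((2 : ℕ) : ℝ) ^ (-m)) ^ 2 ≤ 1 / 4 := by
        refine (pow_le_pow_left₀ h6 h5 2).trans ?_
        norm_num
      have h8 : 0 ≤ ‖(w : ℚ_[2])‖ := norm_nonneg _
      have h9 : (0 : ℝ) ≤ (((2 : ℕ) : ℝ) ^ (-m)) ^ 2 := by positivity
      nlinarith
    linarith
  obtain ⟨k, hk⟩ : ∃ k : ℕ, m = -(k : ℤ) := ⟨(-m).toNat, by omega⟩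
  have hfin : a * (2 ^ k) ^ 2 = w := by
    apply Subtype.ext
    have h3 : (((2 : ℕ) : ℚ_[2]) ^ m) * (2 : ℚ_[2]) ^ k = 1 := by
      rw [hk, zpow_neg, zpow_natCast]
      push_cast
      field_simp
    have h4 : (((a * (2 ^ k) ^ 2 : ℤ_[2])) : ℚ_[2]) = (a : ℚ_[2]) * ((2 : ℚ_[2]) ^ k) ^ 2 := by
      rw [PadicInt.coe_mul, PadicInt.coe_pow, PadicInt.coe_pow]; rfl
    rw [h4, ha']
    linear_combination (w : ℚ_[2]) * ((((2 : ℕ) : ℚ_[2]) ^ m) * (2 : ℚ_[2]) ^ k + 1) * h3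
  refine ⟨r8 x', r8 y', r8 (2 ^ k), ?_, ?_⟩
  · rcases h1 with h1 | h1
    · exact Or.inl (r8_sq_of_norm_one h1)
    · exact Or.inr (r8_sq_of_norm_one h1)
  · have := congrArg r8 hfin
    rw [hw] at this
    simpa only [map_mul, map_pow, map_sub] using this

/-- explicit solutions. -/
theorem nf_of_int {a b x y w : ℤ} {i : ℕ} (ha : a ≠ 0) (h : a * (x ^ 2 - b * y ^ 2) = 4 ^ i * w)
    (hw : w % 8 = 1) : NF (a : ℚ_[2]) (b : ℚ_[2]) := by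
  have h1 : r8 (w : ℤ_[2]) = 1 := by
    rw [map_intCast]
    have : ((w : ℤ) : ZMod 8) = ((1 : ℤ) : ZMod 8) := by
      rw [ZMod.intCast_eq_intCast_iff]
      exact hw
    simpa using this
  obtain ⟨s, hs⟩ := isSquare_of_r8 _ h1
  have hs' : (w : ℚ_[2]) = (s : ℚ_[2]) * s := by
    have := congrArg (fun t : ℤ_[2] ↦ (t : ℚ_[2])) hs
    simpa using this
  have ha' : (a : ℚ_[2]) ≠ 0 := by exact_mod_cast ha
  have hw0 : w ≠ 0 := by rintro rfl; norm_num at hw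
  have hnorm : ((x : ℚ_[2]) ^ 2 - b * (y : ℚ_[2]) ^ 2) ≠ 0 := by
    intro h0
    have : (x ^ 2 - b * y ^ 2 : ℤ) = 0 := by exact_mod_cast h0
    rw [this, mul_zero] at h
    exact mul_ne_zero (pow_ne_zero i (by norm_num)) hw0 h.symm
  have h2 : (a : ℚ_[2]) * ((x : ℚ_[2]) ^ 2 - b * (y : ℚ_[2]) ^ 2) = ((2 : ℚ_[2]) ^ i * s) ^ 2 := by
    have h3 : (a : ℚ_[2]) * ((x : ℚ_[2]) ^ 2 - b * (y : ℚ_[2]) ^ 2) = 4 ^ i * (w : ℚ_[2]) := by
      exact_mod_cast h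
    rw [h3, hs', mul_pow, ← pow_mul, mul_comm i 2, pow_mul]
    norm_num
    ring
  have h4 : NF ((x : ℚ_[2]) ^ 2 - b * (y : ℚ_[2]) ^ 2) (b : ℚ_[2]) := ⟨x, y, rfl⟩
  rw [← NF.mul_iff hnorm h4, mul_comm, h2]
  exact NF.sq _ _

/-- representatives of the square classes of `ℚ_2`. -/
def reps : List ℤ := [1, 3, 5, 7, 2, 6, 10, 14]

/-- bounded search for a solution. -/
def Psol (a b : ℤ) : Bool :=
  (List.range 4).any fun x ↦ (List.range 4).any fun y ↦ (List.range 3).any fun i ↦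
    (a * ((x : ℤ) ^ 2 - b * (y : ℤ) ^ 2) % 4 ^ i == 0) &&
      (a * ((x : ℤ) ^ 2 - b * (y : ℤ) ^ 2) / 4 ^ i % 8 == 1)

theorem nf_of_Psol {a b : ℤ} (ha : a ≠ 0) (h : Psol a b = true) : NF (a : ℚ_[2]) (b : ℚ_[2]) := by
  unfold Psol at h
  rw [List.any_eq_true] at h
  obtain ⟨x, -, h⟩ := h
  rw [List.any_eq_true] at h
  obtain ⟨y, -, h⟩ := h
  rw [List.any_eq_true] at h
  obtain ⟨i, -, h⟩ := h
  simp only [Bool.and_eq_true, beq_iff_eq] at h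
  exact nf_of_int (x := x) (y := y) (i := i) ha
    (Int.mul_ediv_cancel' (Int.dvd_of_emod_eq_zero h.1)).symm h.2

theorem Psol_triple : ∀ a ∈ reps, ∀ a' ∈ reps, ∀ b ∈ reps,
    (Psol a b || Psol a' b || Psol (a * a') b) = true := by
  decide +kernel

theorem reps_ne_zero : ∀ a ∈ reps, a ≠ 0 := by decide

theorem zmod8_unit : ∀ x : ZMod 8, IsUnit x → ∃ n ∈ [1, 3, 5, 7], x * (n : ℤ) = 1 := by decide

theorem exists_rep_two {a : ℚ_[2]} (ha : a ≠ 0) : ∃ n ∈ reps, ∃ c : ℚ_[2], c ≠ 0 ∧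
    a = (n : ℤ) * c ^ 2 := by
  have key : ∀ u : ℤ_[2]ˣ, ∃ n ∈ [(1 : ℤ), 3, 5, 7], ∃ s : ℚ_[2], s ≠ 0 ∧
      ((u : ℤ_[2]) : ℚ_[2]) = (n : ℤ) * s ^ 2 := by
    intro u
    obtain ⟨n, hn, h⟩ := zmod8_unit (r8 u) ((Units.isUnit u).map r8)
    have h1 : r8 (u * (n : ℤ_[2])) = 1 := by
      rw [map_mul, map_intCast]; exact h
    obtain ⟨s, hs⟩ := isSquare_of_r8 _ h1
    have hs' : ((u : ℤ_[2]) : ℚ_[2]) * (n : ℚ_[2]) = (s : ℚ_[2]) * s := by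
      have := congrArg (fun t : ℤ_[2] ↦ (t : ℚ_[2])) hs
      simpa using this
    have hn0 : (n : ℚ_[2]) ≠ 0 := by
      have : n ≠ 0 := by
        rintro rfl
        simp at hn
      exact_mod_cast this
    have hu0 := unit_ne_zero u
    refine ⟨n, hn, (s : ℚ_[2]) / n, ?_, ?_⟩
    · apply div_ne_zero _ hn0
      intro h0
      rw [h0, mul_zero] at hs'
      exact mul_ne_zero hu0 hn0 hs'
    · field_simp
      linear_combination hs'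
  by_cases he : Even a.valuation
  · obtain ⟨u, c, hc, rfl⟩ := exists_rep_even ha he
    obtain ⟨n, hn, s, hs, h⟩ := key u
    refine ⟨n, ?_, s * c, mul_ne_zero hs hc, ?_⟩
    · simp only [reps, List.mem_cons] at hn ⊢
      tauto
    · rw [h]; ring
  · obtain ⟨u, c, hc, rfl⟩ := exists_rep_odd ha he
    obtain ⟨n, hn, s, hs, h⟩ := key u
    refine ⟨2 * n, ?_, s * c, mul_ne_zero hs hc, ?_⟩
    · simp only [reps, List.mem_cons, List.not_mem_nil, or_false] at hn ⊢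
      rcases hn with rfl | rfl | rfl | rfl <;> norm_num
    · rw [h]; push_cast; ring

theorem isHilbert_two : IsHilbert ℚ_[2] := by
  intro a a' b ha ha' hb h h'
  obtain ⟨n, hn, c, hc, rfl⟩ := exists_rep_two ha
  obtain ⟨n', hn', c', hc', rfl⟩ := exists_rep_two ha'
  obtain ⟨m, hm, d, hd, rfl⟩ := exists_rep_two hb
  rw [nf_mul_sq hc, nf_mul_sq_right hd] at h
  rw [nf_mul_sq hc', nf_mul_sq_right hd] at h'
  rw [show ((n : ℤ) : ℚ_[2]) * c ^ 2 * ((n' : ℤ) * c' ^ 2) = ((n * n' : ℤ) : ℚ_[2]) * (c * c') ^ 2 by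
    push_cast; ring, nf_mul_sq (mul_ne_zero hc hc'), nf_mul_sq_right hd]
  have := Psol_triple n hn n' hn' m hm
  rw [Bool.or_eq_true, Bool.or_eq_true] at this
  rcases this with (h1 | h1) | h1
  · exact absurd (nf_of_Psol (reps_ne_zero n hn) h1) h
  · exact absurd (nf_of_Psol (reps_ne_zero n' hn') h1) h'
  · exact nf_of_Psol (mul_ne_zero (reps_ne_zero n hn) (reps_ne_zero n' hn')) h1

end Fermat.Agent.P2.Conic
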