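import Fermat.Agent.P2.Conic.Two

/-!
# Evaluation of the symbol at 2 and at the real place
-/

namespace Fermat.Agent.P2.Conic

theorem exists_sq_of_mod {a a0 : ℤ} (h : (a * a0) % 8 = 1) :
    ∃ c : ℚ_[2], c ≠ 0 ∧ (a : ℚ_[2]) = a0 * c ^ 2 := by
  have h1 : r8 ((a * a0 : ℤ) : ℤ_[2]) = 1 := by
    rw [map_intCast]
    have : ((a * a0 : ℤ) : ZMod 8) = ((1 : ℤ) : ZMod 8) := by
      rw [ZMod.intCast_eq_intCast_iff]
      exact h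
    simpa using this
  obtain ⟨s, hs⟩ := isSquare_of_r8 _ h1
  have hs' : (a : ℚ_[2]) * a0 = (s : ℚ_[2]) * s := by
    have := congrArg (fun t : ℤ_[2] ↦ (t : ℚ_[2])) hs
    simpa using this
  have ha : a ≠ 0 := by rintro rfl; norm_num at h
  have ha0 : a0 ≠ 0 := by rintro rfl; norm_num at h
  have ha' : (a : ℚ_[2]) ≠ 0 := by exact_mod_cast ha
  have ha0' : (a0 : ℚ_[2]) ≠ 0 := by exact_mod_cast ha0
  refine ⟨(s : ℚ_[2]) / a0, ?_, ?_⟩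
  · apply div_ne_zero _ ha0'
    intro h0
    rw [h0, mul_zero] at hs'
    exact mul_ne_zero ha' ha0' hs'
  · field_simp
    linear_combination hs'

theorem not_nf_of_obstruction {a b : ℤ} (ha : (1 : ℝ) / 4 < ‖(a : ℤ_[2])‖)
    (h : ∀ x y z : ZMod 8, (x * x = 1 ∨ y * y = 1) → (a : ZMod 8) * z ^ 2 ≠ x ^ 2 - (b : ZMod 8) * y ^ 2) :
    ¬ NF (a : ℚ_[2]) (b : ℚ_[2]) := by
  intro hnf
  have h1 : NF (((a : ℤ_[2])) : ℚ_[2]) (((b : ℤ_[2])) : ℚ_[2]) := by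
    rw [PadicInt.coe_intCast, PadicInt.coe_intCast]; exact hnf
  obtain ⟨x, y, z, h2, h3⟩ := obstruction ha h1
  rw [map_intCast, map_intCast] at h3
  exact h x y z h2 h3

theorem norm_odd {a : ℤ} (ha : a % 2 = 1) : ‖(a : ℤ_[2])‖ = 1 := by
  rw [← toZMod_ne_zero_iff, map_intCast, Ne, ZMod.intCast_zmod_eq_zero_iff_dvd]
  omega

theorem not_nf_three (a b : ℤ) (ha : a = 3 ∨ a = 7) (hb : b = 3 ∨ b = 7) :
    ¬ NF (a : ℚ_[2]) (b : ℚ_[2]) := by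
  apply not_nf_of_obstruction
  · rw [norm_odd (by omega)]; norm_num
  · rcases ha with rfl | rfl <;> rcases hb with rfl | rfl <;> decide

theorem not_nf_two (b : ℤ) (hb : b = 3 ∨ b = 5) :
    ¬ NF ((2 : ℤ) : ℚ_[2]) (b : ℚ_[2]) := by
  apply not_nf_of_obstruction
  · rw [Int.cast_ofNat, norm_two]; norm_num
  · rcases hb with rfl | rfl <;> decide

theorem nf_two_adic_odd (a b : ℤ) (ha : a % 2 = 1) (hb : b % 2 = 1) :
    NF (a : ℚ_[2]) (b : ℚ_[2]) ↔ ¬ (a % 4 = 3 ∧ b % 4 = 3) := by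
  have key : ∀ a0 b0 : ℤ, (a0 = 1 ∨ a0 = 3 ∨ a0 = 5 ∨ a0 = 7) → (b0 = 1 ∨ b0 = 3 ∨ b0 = 5 ∨ b0 = 7) →
      (NF (a0 : ℚ_[2]) (b0 : ℚ_[2]) ↔ ¬ (a0 % 4 = 3 ∧ b0 % 4 = 3)) := by
    intro a0 b0 ha0 hb0
    by_cases h : a0 % 4 = 3 ∧ b0 % 4 = 3
    · exact ⟨fun h1 ↦ absurd h1 (not_nf_three a0 b0 (by omega) (by omega)), fun h1 ↦ absurd h h1⟩
    · refine ⟨fun _ ↦ h, fun _ ↦ nf_of_Psol (by omega) ?_⟩
      rcases ha0 with rfl | rfl | rfl | rfl <;> rcases hb0 with rfl | rfl | rfl | rfl <;>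
        first | decide +kernel | (exfalso; revert h; decide)
  have h8 : ∀ a : ℤ, a % 2 = 1 → ∃ a0 : ℤ, (a0 = 1 ∨ a0 = 3 ∨ a0 = 5 ∨ a0 = 7) ∧ (a * a0) % 8 = 1 ∧
      a % 8 = a0 := by
    intro a ha
    have h1 : a % 8 = 1 ∨ a % 8 = 3 ∨ a % 8 = 5 ∨ a % 8 = 7 := by omega
    refine ⟨a % 8, h1, ?_, rfl⟩
    rcases h1 with h1 | h1 | h1 | h1 <;> rw [h1] <;> omega
  obtain ⟨a0, ha0, ha1, ha2⟩ := h8 a ha
  obtain ⟨b0, hb0, hb1, hb2⟩ := h8 b hb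
  obtain ⟨c, hc, hac⟩ := exists_sq_of_mod ha1
  obtain ⟨d, hd, hbd⟩ := exists_sq_of_mod hb1
  rw [hac, hbd, nf_mul_sq hc, nf_mul_sq_right hd, key a0 b0 ha0 hb0]
  constructor <;> intro h h' <;> apply h <;> omega

theorem nf_two_adic_two (b : ℤ) (hb : b % 2 = 1) :
    NF ((2 : ℤ) : ℚ_[2]) (b : ℚ_[2]) ↔ b % 8 = 1 ∨ b % 8 = 7 := by
  have h1 : b % 8 = 1 ∨ b % 8 = 3 ∨ b % 8 = 5 ∨ b % 8 = 7 := by omega
  have h2 : (b * (b % 8)) % 8 = 1 := by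
    rcases h1 with h1 | h1 | h1 | h1 <;> rw [h1] <;> omega
  obtain ⟨d, hd, hbd⟩ := exists_sq_of_mod h2
  rw [hbd, nf_mul_sq_right hd]
  rcases h1 with h1 | h1 | h1 | h1
  · rw [h1]
    exact ⟨fun _ ↦ Or.inl rfl, fun _ ↦ nf_of_Psol (by norm_num) (by decide +kernel)⟩
  · rw [h1]
    exact ⟨fun h ↦ absurd h (not_nf_two 3 (by norm_num)), fun h ↦ by omega⟩
  · rw [h1]
    exact ⟨fun h ↦ absurd h (not_nf_two 5 (by norm_num)), fun h ↦ by omega⟩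
  · rw [h1]
    exact ⟨fun _ ↦ Or.inr rfl, fun _ ↦ nf_of_Psol (by norm_num) (by decide +kernel)⟩

theorem nf_real_iff {a b : ℝ} (ha : a ≠ 0) (hb : b ≠ 0) : NF a b ↔ 0 < a ∨ 0 < b := by
  constructor
  · rintro ⟨x, y, h⟩
    by_contra hcon
    push Not at hcon
    have h1 : a < 0 := lt_of_le_of_ne hcon.1 ha
    have h2 : b * y ^ 2 ≤ 0 := mul_nonpos_of_nonpos_of_nonneg hcon.2 (sq_nonneg y)
    have h3 := sq_nonneg x
    linarith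
  · rintro (h | h)
    · exact nf_of_isSquare_left ⟨Real.sqrt a, (Real.mul_self_sqrt h.le).symm⟩
    · exact nf_of_isSquare_right two_ne_zero hb ⟨Real.sqrt b, (Real.mul_self_sqrt h.le).symm⟩

theorem isHilbert_real : IsHilbert ℝ := by
  intro a a' b ha ha' hb h h'
  rw [nf_real_iff ha hb] at h
  rw [nf_real_iff ha' hb] at h'
  rw [nf_real_iff (mul_ne_zero ha ha') hb]
  push Not at h h'
  left
  exact mul_pos_of_neg_of_neg (lt_of_le_of_ne h.1 ha) (lt_of_le_of_ne h'.1 ha')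

end Fermat.Agent.P2.Conic
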