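import Fermat.Agent.P2.Conic.Norm

/-!
# `p`-adic units, squares and Hensel's lemma
-/

namespace Fermat.Agent.P2.Conic

open Polynomial

variable {p : ℕ} [hp : Fact p.Prime]

/-- Hensel for `X² - u`. -/
theorem isSquare_of_near (a u : ℤ_[p]) (h : ‖a ^ 2 - u‖ < ‖2 * a‖ ^ 2) :
    IsSquare u := by
  have := hensels_lemma (p := p) (R := ℤ_[p]) (F := X ^ 2 - C u) (a := a) (by simpa [one_add_one_eq_two] using h)
  obtain ⟨z, hz, -⟩ := this
  refine ⟨z, ?_⟩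
  have h1 : z ^ 2 - u = 0 := by simpa using hz
  linear_combination -h1

theorem norm_unit (u : ℤ_[p]ˣ) : ‖((u : ℤ_[p]) : ℚ_[p])‖ = 1 := by
  exact PadicInt.norm_units u

theorem unit_ne_zero (u : ℤ_[p]ˣ) : ((u : ℤ_[p]) : ℚ_[p]) ≠ 0 := by
  have := norm_unit u
  intro h
  rw [h] at this
  simp at this

theorem exists_unit_of_norm {x : ℚ_[p]} (hx : ‖x‖ = 1) : ∃ u : ℤ_[p]ˣ, ((u : ℤ_[p]) : ℚ_[p]) = x :=
  ⟨PadicInt.mkUnits hx, by simp [PadicInt.mkUnits]⟩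

theorem p_ne_zero : (p : ℚ_[p]) ≠ 0 := by
  exact_mod_cast hp.out.ne_zero

theorem norm_eq_one_of_val {x : ℚ_[p]} (hx : x ≠ 0) (h : x.valuation = 0) : ‖x‖ = 1 := by
  rw [Padic.norm_eq_zpow_neg_valuation hx, h]; simp

theorem val_unit (u : ℤ_[p]ˣ) : ((u : ℤ_[p]) : ℚ_[p]).valuation = 0 := by
  have h := norm_unit u
  rw [Padic.norm_eq_zpow_neg_valuation (unit_ne_zero u)] at h
  have hp1 : (1 : ℝ) < p := by exact_mod_cast hp.out.one_lt
  by_contra hne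
  rcases lt_or_gt_of_ne hne with h1 | h1
  · have := one_lt_zpow₀ hp1 (n := -((u : ℤ_[p]) : ℚ_[p]).valuation) (by omega)
    linarith
  · have := zpow_lt_one_of_neg₀ hp1 (n := -((u : ℤ_[p]) : ℚ_[p]).valuation) (by omega)
    linarith

/-- elements of even valuation are units up to squares. -/
theorem exists_rep_even {a : ℚ_[p]} (ha : a ≠ 0) (h : Even a.valuation) :
    ∃ (u : ℤ_[p]ˣ) (c : ℚ_[p]), c ≠ 0 ∧ a = ((u : ℤ_[p]) : ℚ_[p]) * c ^ 2 := by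
  obtain ⟨m, hm⟩ := h
  have hc : ((p : ℚ_[p]) ^ m) ≠ 0 := zpow_ne_zero _ p_ne_zero
  have hval : (((p : ℚ_[p]) ^ m) ^ 2).valuation = m + m := by
    rw [Padic.valuation_pow, Padic.valuation_zpow, Padic.valuation_p]
    push_cast; ring
  have hx : (a * (((p : ℚ_[p]) ^ m) ^ 2)⁻¹).valuation = 0 := by
    rw [Padic.valuation_mul ha (inv_ne_zero (pow_ne_zero 2 hc)), Padic.valuation_inv, hval, hm]
    ring
  obtain ⟨u, hu⟩ := exists_unit_of_norm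
    (norm_eq_one_of_val (mul_ne_zero ha (inv_ne_zero (pow_ne_zero 2 hc))) hx)
  refine ⟨u, (p : ℚ_[p]) ^ m, hc, ?_⟩
  rw [hu]
  field_simp

theorem exists_rep_odd {a : ℚ_[p]} (ha : a ≠ 0) (h : ¬ Even a.valuation) :
    ∃ (u : ℤ_[p]ˣ) (c : ℚ_[p]), c ≠ 0 ∧ a = (p * ((u : ℤ_[p]) : ℚ_[p])) * c ^ 2 := by
  have h1 : Even (a * (p : ℚ_[p])⁻¹).valuation := by
    rw [Padic.valuation_mul ha (inv_ne_zero p_ne_zero), Padic.valuation_inv, Padic.valuation_p]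
    rw [Int.not_even_iff_odd] at h
    obtain ⟨k, hk⟩ := h
    exact ⟨k, by omega⟩
  obtain ⟨u, c, hc, h2⟩ := exists_rep_even (mul_ne_zero ha (inv_ne_zero p_ne_zero)) h1
  refine ⟨u, c, hc, ?_⟩
  have hp0 := p_ne_zero (p := p)
  have : a = (a * (p : ℚ_[p])⁻¹) * p := by field_simp
  rw [this, h2]; ring

/-- scaling two elements to a primitive pair. -/
theorem exists_primitive {x y : ℚ_[p]} (h : x ≠ 0 ∨ y ≠ 0) :
    ∃ (x' y' : ℤ_[p]) (m : ℤ), x = x' * (p : ℚ_[p]) ^ m ∧ y = y' * (p : ℚ_[p]) ^ m ∧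
      (‖x'‖ = 1 ∨ ‖y'‖ = 1) := by
  have key : ∀ x y : ℚ_[p], x ≠ 0 → ‖y‖ ≤ ‖x‖ → ∃ (x' y' : ℤ_[p]) (m : ℤ),
      x = x' * (p : ℚ_[p]) ^ m ∧ y = y' * (p : ℚ_[p]) ^ m ∧ (‖x'‖ = 1 ∨ ‖y'‖ = 1) := by
    intro x y hx hyx
    have hpm : ((p : ℚ_[p]) ^ x.valuation) ≠ 0 := zpow_ne_zero _ p_ne_zero
    have hnpm : ‖(p : ℚ_[p]) ^ x.valuation‖ = ‖x‖ := by
      rw [Padic.norm_eq_zpow_neg_valuation hx, Padic.norm_p_zpow]
    have hx0 : ‖x‖ ≠ 0 := norm_ne_zero_iff.2 hx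
    have hxpos : 0 < ‖x‖ := norm_pos_iff.2 hx
    have h1 : ‖x * ((p : ℚ_[p]) ^ x.valuation)⁻¹‖ = 1 := by
      rw [norm_mul, norm_inv, hnpm]; field_simp
    have h2 : ‖y * ((p : ℚ_[p]) ^ x.valuation)⁻¹‖ ≤ 1 := by
      rw [norm_mul, norm_inv, hnpm, ← div_eq_mul_inv, div_le_one hxpos]
      exact hyx
    refine ⟨⟨_, h1.le⟩, ⟨_, h2⟩, x.valuation, ?_, ?_, Or.inl ?_⟩
    · simp only; field_simp
    · simp only; field_simp
    · exact h1
  rcases le_total ‖y‖ ‖x‖ with hle | hle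
  · have hx : x ≠ 0 := by
      rintro rfl
      rw [norm_zero] at hle
      have hy : y = 0 := norm_le_zero_iff.1 hle
      rcases h with h | h
      · exact h rfl
      · exact h hy
    exact key x y hx hle
  · have hy : y ≠ 0 := by
      rintro rfl
      rw [norm_zero] at hle
      have hx : x = 0 := norm_le_zero_iff.1 hle
      rcases h with h | h
      · exact h hx
      · exact h rfl
    obtain ⟨x', y', m, h1, h2, h3⟩ := key y x hy hle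
    exact ⟨y', x', m, h2, h1, h3.symm⟩

end Fermat.Agent.P2.Conic
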